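import Fermat.Agent.CFT.Idele.PsiNorm
import Fermat.Agent.CFT.Duality.Incl

/-!
# The norm from the idele classes of `L` to those of `ℚ`, and the character on them

`normC L` is the sum over `Gal(L/ℚ)`, descended; `psiC a` is `psi a` on rational idele classes.  It
kills norms from every field containing `fixedChi` and takes the value `1` on the norm of a class
of `L` when `L` is unramified at the auxiliary prime.
-/

set_option autoImplicit false
set_option synthInstance.maxHeartbeats 200000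
set_option linter.style.haveILetI false
set_option linter.unusedSectionVars false

noncomputable section

namespace Fermat.Agent.CFT.Form

open ExtCitation Fermat.Agent.Arith IntermediateField Fermat.Agent.CFT.Local Fermat.Agent.CFT.Idele
open Fermat.Agent.CFT.Duality (levelRes levelRes_res levelRes_surjective)

local instance factPrimeNormDown (q : Nat.Primes) : Fact (q : ℕ).Prime := ⟨q.2⟩

/-- A sum over a group, fibred along a homomorphism with a section. -/
theorem sum_smul_fibre {U V A : Type*} [Group U] [Group V] [Fintype U] [Fintype V] [AddCommGroup A]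
    [DistribMulAction U A] (π : U →* V) [Fintype π.ker] (t : V → U) (ht : ∀ v, π (t v) = v)
    (w : A) : ∑ v, t v • ∑ ν : π.ker, (ν : U) • w = ∑ σ : U, σ • w := by
  have h := congrArg Multiplicative.toAdd
    (prod_section_ker π t ht fun v => Multiplicative.ofAdd (v • w))
  simpa [toAdd_prod, Finset.smul_sum, smul_smul] using h

instance normal_galBot : Normal ℚ (⊥ : IntermediateField ℚ QBar) :=
  haveI : IsGalois ℚ (⊥ : IntermediateField ℚ QBar) := isGalois_bot
  IsGalois.to_normal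

instance subsingleton_galBot :
    Subsingleton ((⊥ : IntermediateField ℚ QBar) ≃ₐ[ℚ] (⊥ : IntermediateField ℚ QBar)) :=
  ⟨fun σ τ => AlgEquiv.ext fun x => by
    obtain ⟨r, hr⟩ := IntermediateField.mem_bot.1 x.2
    rw [show x = algebraMap ℚ (⊥ : IntermediateField ℚ QBar) r from Subtype.ext hr.symm,
      AlgEquiv.commutes, AlgEquiv.commutes]⟩

section Norm

variable {K L M : IntermediateField ℚ QBar} [FiniteDimensional ℚ K] [Normal ℚ K]
  [FiniteDimensional ℚ L] [Normal ℚ L] [FiniteDimensional ℚ M] [Normal ℚ M]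

theorem inclC_inclC (h₁ : K ≤ L) (h₂ : L ≤ M) (z : C K) :
    Duality.inclC h₂ (Duality.inclC h₁ z) = Duality.inclC (h₁.trans h₂) z := by
  obtain ⟨x, rfl⟩ := proj_surjective K z
  rfl

theorem smul_inclC_bot (σ : L ≃ₐ[ℚ] L) (e : C (⊥ : IntermediateField ℚ QBar)) :
    σ • Duality.inclC (bot_le : ⊥ ≤ L) e = Duality.inclC (bot_le : ⊥ ≤ L) e := by
  rw [Duality.smul_inclC, Subsingleton.elim (levelRes _ σ) 1, one_smul]

theorem exists_normC (z : C L) :
    ∃ e : C (⊥ : IntermediateField ℚ QBar),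
      Duality.inclC (bot_le : ⊥ ≤ L) e = ∑ σ : L ≃ₐ[ℚ] L, σ • z :=
  Duality.exists_inclC_eq _ fun τ _ => by
    rw [Finset.smul_sum]
    exact Fintype.sum_equiv (Equiv.mulLeft τ) _ _ fun σ => smul_smul τ σ z

variable (L) in
/-- The norm to the rational idele classes. -/
def normC : C L →+ C (⊥ : IntermediateField ℚ QBar) :=
  AddMonoidHom.mk' (fun z => (exists_normC z).choose) fun z z' =>
    Duality.inclC_injective _ <| by
      rw [map_add, (exists_normC _).choose_spec, (exists_normC _).choose_spec,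
        (exists_normC _).choose_spec]
      simp only [smul_add, Finset.sum_add_distrib]

theorem inclC_normC (z : C L) :
    Duality.inclC (bot_le : ⊥ ≤ L) (normC L z) = ∑ σ : L ≃ₐ[ℚ] L, σ • z :=
  (exists_normC z).choose_spec

theorem normC_inclC_bot (e : C (⊥ : IntermediateField ℚ QBar)) :
    normC L (Duality.inclC (bot_le : ⊥ ≤ L) e) = Nat.card (L ≃ₐ[ℚ] L) • e := by
  refine Duality.inclC_injective _ ((inclC_normC _).trans ?_)
  rw [map_nsmul, Finset.sum_congr rfl fun σ _ => smul_inclC_bot σ e, Finset.sum_const,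
    Finset.card_univ, Nat.card_eq_fintype_card]

/-- Transitivity: an element of `L` which is a norm from `M` has the same norm to `ℚ`. -/
theorem normC_of_fibre (h : L ≤ M) [Fintype (levelRes h).ker] {z : C L} {w : C M}
    (hz : Duality.inclC h z = ∑ ν : (levelRes h).ker, (ν : M ≃ₐ[ℚ] M) • w) :
    normC L z = normC M w := by
  refine Duality.inclC_injective (bot_le : ⊥ ≤ M) ?_
  rw [inclC_normC w, ← inclC_inclC (bot_le : ⊥ ≤ L) h, inclC_normC, map_sum,
    ← sum_smul_fibre (levelRes h) (Function.surjInv (levelRes_surjective h))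
      (Function.surjInv_eq (levelRes_surjective h)) w]
  refine Finset.sum_congr rfl fun σ _ => ?_
  rw [← hz, Duality.smul_inclC, Function.surjInv_eq (levelRes_surjective h)]

theorem exists_norm_idl (f : idl L) : ∃ P : idl (⊥ : IntermediateField ℚ QBar),
    Duality.inclIdl (bot_le : ⊥ ≤ L) P = ∏ σ : L ≃ₐ[ℚ] L, σ • f :=
  Duality.exists_inclIdl_eq _ fun τ _ => by
    rw [Finset.smul_prod']
    exact Fintype.prod_equiv (Equiv.mulLeft τ) _ _ fun σ => smul_smul τ σ f

theorem normC_proj {f : idl L} {P : idl (⊥ : IntermediateField ℚ QBar)}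
    (hP : Duality.inclIdl (bot_le : ⊥ ≤ L) P = ∏ σ : L ≃ₐ[ℚ] L, σ • f) :
    normC L (proj L (Additive.ofMul f)) = proj _ (Additive.ofMul P) := by
  refine Duality.inclC_injective (bot_le : ⊥ ≤ L) ((inclC_normC _).trans ?_)
  rw [Duality.inclC_proj]
  simp only [← proj_smul, ← map_sum]
  refine congrArg (proj L) ?_
  show ∑ σ : L ≃ₐ[ℚ] L, Additive.ofMul (σ • f) = Additive.ofMul (Duality.inclIdl _ P)
  rw [hP, ofMul_prod]

/-- The components of a norm. -/
theorem algebraMap_botVal_norm {f : idl L} {P : idl (⊥ : IntermediateField ℚ QBar)}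
    (hP : Duality.inclIdl (bot_le : ⊥ ≤ L) P = ∏ σ : L ≃ₐ[ℚ] L, σ • f) (l : Nat.Primes) :
    algebraMap ℚ_[(l : ℕ)] (E L l) (botVal l P : ℚ_[(l : ℕ)]) =
      ((∏ σ : L ≃ₐ[ℚ] L, val f l σ : (E L l)ˣ) : E L l) := by
  rw [show ∏ σ : L ≃ₐ[ℚ] L, val f l σ = val (∏ σ : L ≃ₐ[ℚ] L, σ • f) l 1 by
    rw [val_prod]; exact Finset.prod_congr rfl fun σ _ => by rw [val_smul, one_mul]]
  refine Subtype.ext ?_
  rw [coe_val _ l (map_one (res L)), ← hP]
  exact botVal_spec l P 1

end Norm

section Character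

variable {n : ℕ} (a : Aux n) (hn : Odd n)

/-- The character on rational idele classes. -/
def psiC : C (⊥ : IntermediateField ℚ QBar) →+ ZMod n :=
  AddMonoidHom.mk' (fun z => Multiplicative.toAdd (QuotientGroup.lift _ (psi a) (by
      rintro _ ⟨x, rfl⟩
      exact MonoidHom.mem_ker.2 (psi_prin a hn _)) (z.toMul : ClassGrp _)))
    fun z z' => by rw [toMul_add, map_mul, toAdd_mul]

theorem psiC_proj (f : idl (⊥ : IntermediateField ℚ QBar)) :
    psiC a hn (proj _ (Additive.ofMul f)) = Multiplicative.toAdd (psi a f) := rfl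

/-- The character kills norms from the cyclic field. -/
theorem psiC_normC_fixedChi (z : C a.fixedChi) : psiC a hn (normC a.fixedChi z) = 0 := by
  obtain ⟨y, rfl⟩ := proj_surjective a.fixedChi z
  obtain ⟨P, hP⟩ := exists_norm_idl y.toMul
  rw [show y = Additive.ofMul y.toMul from rfl, normC_proj hP, psiC_proj,
    psi_norm a y.toMul P (congrArg Subtype.val hP), toAdd_one]

/-- The character kills norms from every field containing the cyclic field. -/
theorem psiC_normC_of_le {M : IntermediateField ℚ QBar} [FiniteDimensional ℚ M] [Normal ℚ M]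
    (h : a.fixedChi ≤ M) (w : C M) : psiC a hn (normC M w) = 0 := by
  classical
  obtain ⟨z, hz⟩ := Duality.exists_inclC_eq h
    (c := ∑ ν : (levelRes h).ker, (ν : M ≃ₐ[ℚ] M) • w) fun τ hτ => by
      rw [Finset.smul_sum]
      exact Fintype.sum_equiv (Equiv.mulLeft (⟨τ, hτ⟩ : (levelRes h).ker)) _ _
        fun ν => smul_smul τ (ν : M ≃ₐ[ℚ] M) w
  rw [← normC_of_fibre h hz, psiC_normC_fixedChi]

/-- A unit of `ℤ_q` with given residue. -/
theorem exists_resUnit_eq {q : ℕ} [Fact q.Prime] (r : (ZMod q)ˣ) :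
    ∃ u : ℚ_[q]ˣ, ‖(u : ℚ_[q])‖ = 1 ∧ resUnit u = r := by
  have hr0 : ¬ q ∣ (r : ZMod q).val := by
    rw [← ZMod.natCast_eq_zero_iff, ZMod.natCast_zmod_val]; exact r.ne_zero
  refine ⟨Units.mk0 (((r : ZMod q).val : ℤ) : ℚ_[q])
    (Int.cast_ne_zero.2 fun h => hr0 (by exact_mod_cast h ▸ dvd_zero (q : ℤ))), ?_, ?_⟩
  · rw [Units.val_mk0]
    exact le_antisymm (Padic.norm_int_le_one _)
      (not_lt.1 fun h => hr0 (Int.natCast_dvd_natCast.1 ((Padic.norm_intCast_lt_one_iff).1 h)))
  · refine Units.ext ?_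
    rw [resUnit_intCast (Units.val_mk0 _) (fun h => hr0 (Int.natCast_dvd_natCast.1 h))]
    simp

/-- In an unramified extension a unit of the base is a norm. -/
theorem exists_unramified_norm {q : ℕ} [Fact q.Prime]
    {K : IntermediateField ℚ_[q] (PadicAlgCl q)} [FiniteDimensional ℚ_[q] K] [Normal ℚ_[q] K]
    [Fintype (⊤ : Subgroup (K ≃ₐ[ℚ_[q]] K))]
    (hK : inertia K = ⊥) (u : ℚ_[q]ˣ) (hu : ‖(u : ℚ_[q])‖ = 1) :
    ∃ w : Kˣ, NormalLattice.normHom (⊤ : Subgroup (K ≃ₐ[ℚ_[q]] K)) w =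
      Units.map (algebraMap ℚ_[q] K).toMonoidHom u := by
  have hy₀ : Units.map (algebraMap ℚ_[q] K).toMonoidHom u ∈ unitGroup K := (mem_unitGroup _).2 (by
    show ‖algebraMap ℚ_[q] K (u : ℚ_[q])‖ = 1
    rw [norm_algebraMap', hu])
  obtain ⟨w, hw⟩ := normSurj_unitGroup (⊤ : Subgroup (K ≃ₐ[ℚ_[q]] K))
    (by rw [hK, inf_bot_eq]) (Additive.ofMul ⟨_, hy₀⟩) fun t =>
      Additive.toMul.injective (Subtype.ext (Units.ext
        ((t : K ≃ₐ[ℚ_[q]] K).commutes (u : ℚ_[q]))))
  refine ⟨(w.toMul : Kˣ), ?_⟩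
  rw [← normSum_unitGroup_coe, hw]
  rfl

theorem prod_val_locIdl {L : IntermediateField ℚ QBar} [FiniteDimensional ℚ L] [Normal ℚ L]
    (q : Nat.Primes) [Fintype (⊤ : Subgroup (E L q ≃ₐ[ℚ_[(q : ℕ)]] E L q))] (w : (E L q)ˣ) :
    ∏ σ : L ≃ₐ[ℚ] L, val (locIdl q w) q σ =
      NormalLattice.normHom (⊤ : Subgroup (E L q ≃ₐ[ℚ_[(q : ℕ)]] E L q)) w := by
  classical
  exact (Fintype.prod_of_injective
    (fun t : (⊤ : Subgroup (E L q ≃ₐ[ℚ_[(q : ℕ)]] E L q)) => toGlobal (q : ℕ) L t)
    ((toGlobal_injective _ _).comp Subtype.val_injective) _ _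
    (fun σ hσ => val_locIdl_of_notMem q _ fun ⟨t, ht⟩ => hσ ⟨⟨t, Subgroup.mem_top t⟩, ht⟩)
    (fun t => (val_locIdl_self q _ (t : E L q ≃ₐ[ℚ_[(q : ℕ)]] E L q)).symm)).symm

/-- The character is surjective on norms from a field unramified at the auxiliary prime. -/
theorem exists_psiC_normC_eq_one {L : IntermediateField ℚ QBar} [FiniteDimensional ℚ L]
    [Normal ℚ L] (hq : inertia (E L a.q) = ⊥) : ∃ z : C L, psiC a hn (normC L z) = 1 := by
  classical
  obtain ⟨r, hr⟩ := a.surj (Multiplicative.ofAdd 1)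
  obtain ⟨u, hu, hures⟩ := exists_resUnit_eq r
  letI := Fintype.ofFinite (⊤ : Subgroup (E L a.q ≃ₐ[ℚ_[(a.q : ℕ)]] E L a.q))
  obtain ⟨w, hw⟩ := exists_unramified_norm hq u hu
  obtain ⟨P, hP⟩ := exists_norm_idl (locIdl a.q w)
  refine ⟨proj L (Additive.ofMul (locIdl a.q w)), ?_⟩
  rw [normC_proj hP, psiC_proj]
  have hother : ∀ l, l ≠ a.q → ‖(botVal l P : ℚ_[(l : ℕ)])‖ = 1 := fun l hl => by
    rw [← norm_algebraMap' (E L l) (botVal l P : ℚ_[(l : ℕ)]), algebraMap_botVal_norm hP l,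
      Finset.prod_eq_one fun σ _ => val_locIdl_of_ne a.q _ hl σ, Units.val_one, norm_one]
  have hself : botVal a.q P = u := by
    refine Units.ext ((algebraMap ℚ_[(a.q : ℕ)] (E L a.q)).injective ?_)
    rw [algebraMap_botVal_norm hP a.q, prod_val_locIdl, hw]
    rfl
  rw [psi_of_units a hother, hself, hures, hr, toAdd_ofAdd]

end Character

end Fermat.Agent.CFT.Form
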