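import Fermat.Agent.CFT.Form.Statement
import Fermat.Agent.CFT.Form.NormDown
import Fermat.Agent.CFT.Idele.Carry
import Fermat.Agent.CFT.Idele.SecondIneq
import Fermat.Agent.CFT.Idele.LocalTriv

/-!
# The global class formation

The fundamental class of `L` at `p` is the descent of the carry cocycle of a cyclic extension of
order the `p`-part of `[L : ℚ]`, totally ramified at an auxiliary prime unramified in `L`.
-/

set_option autoImplicit false
set_option synthInstance.maxHeartbeats 200000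
set_option linter.style.haveILetI false
set_option linter.unusedSectionVars false

noncomputable section

namespace Fermat.Agent.CFT.Form

open ExtCitation Fermat.Agent.Arith IntermediateField Fermat.Agent.CFT.Local Fermat.Agent.CFT.Idele
open groupCohomology
open Fermat.Agent.CFT.Duality (levelRes levelRes_res levelRes_surjective)

local instance factPrimeGlobalForm (q : Nat.Primes) : Fact (q : ℕ).Prime := ⟨q.2⟩

variable {n : ℕ} (a : Aux n) {L M : IntermediateField ℚ QBar} [FiniteDimensional ℚ L] [Normal ℚ L]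
  [FiniteDimensional ℚ M] [Normal ℚ M]

/-- The character on `Gal(M/ℚ)` for `M` containing the cyclic field. -/
def chiUp (hF : a.fixedChi ≤ M) : (M ≃ₐ[ℚ] M) →* Multiplicative (ZMod n) :=
  a.galEquiv.toMonoidHom.comp (levelRes hF)

theorem chiUp_res (hF : a.fixedChi ≤ M) (g : GQ) : chiUp a hF (res M g) = a.chi g := by
  show a.galEquiv (levelRes hF (res M g)) = _
  rw [levelRes_res, a.galEquiv_res]

theorem mem_ker_chiUp {hF : a.fixedChi ≤ M} {σ : M ≃ₐ[ℚ] M} :
    levelRes hF σ = 1 ↔ chiUp a hF σ = 1 :=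
  (map_eq_one_iff a.galEquiv a.galEquiv.injective).symm

theorem eq_of_restrictions (hL : L ≤ M) (hF : a.fixedChi ≤ M) (hsup : M ≤ L ⊔ a.fixedChi)
    {σ τ : M ≃ₐ[ℚ] M} (h1 : levelRes hL σ = levelRes hL τ) (h2 : chiUp a hF σ = chiUp a hF τ) :
    σ = τ := by
  obtain ⟨g, rfl⟩ := AlgEquiv.restrictNormalHom_surjective (K₁ := M) QBar σ
  obtain ⟨g', rfl⟩ := AlgEquiv.restrictNormalHom_surjective (K₁ := M) QBar τ
  rw [levelRes_res, levelRes_res, res_eq_iff] at h1
  rw [chiUp_res, chiUp_res, a.chi_eq_iff, res_eq_iff] at h2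
  refine (res_eq_iff M).2 (IntermediateField.fixingSubgroup_antitone hsup ?_)
  rw [IntermediateField.fixingSubgroup_sup]
  exact ⟨h1, h2⟩

theorem exists_ker_chiUp_eq (hL : L ≤ M) (hF : a.fixedChi ≤ M) (hq : inertia (E L a.q) = ⊥)
    (c : Multiplicative (ZMod n)) : ∃ σ, levelRes hL σ = 1 ∧ chiUp a hF σ = c := by
  obtain ⟨g, hg, rfl⟩ := a.exists_inertia c
  refine ⟨res M g, ?_, chiUp_res a hF g⟩
  rw [levelRes_res, res_eq_one_iff, IntermediateField.mem_fixingSubgroup_iff]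
  exact fun x hx => (inertia_eq_bot_iff (a.q : ℕ) L).1 hq g hg ⟨x, hx⟩

variable {p m : ℕ} [hp : Fact p.Prime] (b : Aux (p ^ m)) (hn : Odd (p ^ m))

/-- A rational class whose character is `1` is a norm from `M` to `L`. -/
theorem exists_norm_of_psi (hL : L ≤ M) (hF : b.fixedChi ≤ M)
    (hA : StepAxioms p (M ≃ₐ[ℚ] M) (C M)) (hdvd : p ^ m ∣ Nat.card (L ≃ₐ[ℚ] L))
    {γ : M ≃ₐ[ℚ] M} (hγ : levelRes hL γ = 1) (hord : orderOf γ = p ^ m)
    (hgen : (levelRes hL).ker = Subgroup.zpowers γ) {z : C L}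
    (hz : psiC b hn (normC L z) = 1) :
    ∃ w : C M, Duality.inclC (bot_le : ⊥ ≤ M) (normC L z) =
      ∑ i ∈ Finset.range (p ^ m), γ ^ i • w := by
  classical
  obtain ⟨R, hR⟩ := exists_reps_cyclic hA m γ hord
  have hker : ∀ (z' : C L) (w : C M),
      Duality.inclC hL z' = ∑ i ∈ Finset.range (p ^ m), γ ^ i • w →
      psiC b hn (normC L z') = 0 := fun z' w h => by
    letI := Fintype.ofFinite (Subgroup.zpowers γ)
    rw [normC_of_fibre hL (w := w) ?_, psiC_normC_of_le b hn hF]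
    rw [h, ← hord, ← sum_range_orderOf_smul γ (isOfFinOrder_of_finite γ) w]
    exact (Fintype.sum_equiv (MulEquiv.subgroupCongr hgen).toEquiv _ _ fun _ => rfl).symm
  have hfix : ∀ z' : C L, γ • Duality.inclC hL z' = Duality.inclC hL z' := fun z' => by
    rw [Duality.smul_inclC, hγ, one_smul]
  choose j W hW using fun c : ZMod (p ^ m) => hR _ (hfix (c.val • z))
  have hval : ∀ c : ZMod (p ^ m), psiC b hn (normC L (c.val • z)) = c := fun c => by
    rw [map_nsmul, map_nsmul, hz, nsmul_one, ZMod.natCast_zmod_val]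
  have hdiff : ∀ (z₁ z₂ : C L) (r w₁ w₂ : C M),
      Duality.inclC hL z₁ = r + ∑ i ∈ Finset.range (p ^ m), γ ^ i • w₁ →
      Duality.inclC hL z₂ = r + ∑ i ∈ Finset.range (p ^ m), γ ^ i • w₂ →
      psiC b hn (normC L z₁) = psiC b hn (normC L z₂) := fun z₁ z₂ r w₁ w₂ e₁ e₂ => by
    rw [← sub_eq_zero, ← map_sub, ← map_sub]
    refine hker _ (w₁ - w₂) ?_
    rw [map_sub, e₁, e₂, add_sub_add_left_eq_sub, ← Finset.sum_sub_distrib]
    exact Finset.sum_congr rfl fun i _ => (smul_sub (γ ^ i) w₁ w₂).symm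
  have hinj : Function.Injective j := fun c c' e => by
    have h := hdiff _ _ _ _ _ (hW c) (e ▸ hW c')
    rwa [hval, hval] at h
  set xL := Duality.inclC (bot_le : ⊥ ≤ L) (normC L z) with hxL
  obtain ⟨j₀, w, hw⟩ := hR _ (hfix xL)
  obtain ⟨c, rfl⟩ := ((Fintype.bijective_iff_injective_and_card j).2
    ⟨hinj, by rw [ZMod.card, Fintype.card_fin]⟩).2 j₀
  have h := hdiff _ _ _ _ _ hw (hW c)
  rw [hval, hxL, normC_inclC_bot, map_nsmul, hz, nsmul_one,
    (ZMod.natCast_eq_zero_iff _ _).2 hdvd] at h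
  refine ⟨w - W c, ?_⟩
  have h0 := hW c
  rw [← h, ZMod.val_zero, zero_smul, map_zero, h] at h0
  rw [← inclC_inclC (bot_le : ⊥ ≤ L) hL, ← hxL, hw, eq_neg_of_add_eq_zero_left h0.symm,
    neg_add_eq_sub, ← Finset.sum_sub_distrib]
  exact Finset.sum_congr rfl fun i _ => (smul_sub (γ ^ i) w (W c)).symm

set_option maxHeartbeats 1000000 in
/-- A multiple of a class of character `1` whose carry dies on the preimage of a Sylow subgroup
is a multiple of the order of that subgroup. -/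
theorem dvd_of_coboundary (hL : L ≤ M) (hF : b.fixedChi ≤ M)
    (hA : StepAxioms p (M ≃ₐ[ℚ] M) (C M)) {γ : M ≃ₐ[ℚ] M} (hγ : levelRes hL γ = 1)
    (hγχ : chiUp b hF γ = Multiplicative.ofAdd 1)
    (hboth : ∀ {σ τ : M ≃ₐ[ℚ] M}, levelRes hL σ = levelRes hL τ →
      chiUp b hF σ = chiUp b hF τ → σ = τ)
    {x₀ : C (⊥ : IntermediateField ℚ QBar)} (hx₀ : psiC b hn x₀ = 1)
    (P : Sylow p (L ≃ₐ[ℚ] L)) (k : ℤ)
    (hk : IsCoboundary₂ (carryN
      ((chiUp b hF).comp ((P : Subgroup (L ≃ₐ[ℚ] L)).comap (levelRes hL)).subtype)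
      (k • Duality.inclC (bot_le : ⊥ ≤ M) x₀))) :
    ((p ^ m : ℕ) : ℤ) ∣ k := by
  classical
  rcases Nat.eq_zero_or_pos m with rfl | hm
  · simp
  set π := levelRes hL
  set χ := chiUp b hF
  set P' := (P : Subgroup (L ≃ₐ[ℚ] L)).comap π
  set χP := χ.comp P'.subtype
  let γP : P' := ⟨γ, by show π γ ∈ (P : Subgroup (L ≃ₐ[ℚ] L)); rw [hγ]; exact one_mem _⟩
  -- the kernel of the character is a `p`-group
  have h1 : H1Zero χP.ker (C M) := by
    have hmem : ∀ x : χP.ker.map P'.subtype, π x ∈ (P : Subgroup (L ≃ₐ[ℚ] L)) ∧ χ x = 1 := by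
      rintro ⟨_, y, hy, rfl⟩
      exact ⟨y.2, hy⟩
    have hp' : IsPGroup p (χP.ker.map P'.subtype) := by
      refine IsPGroup.of_injective P.2 (MonoidHom.mk' (fun x => (⟨π x, (hmem x).1⟩ : P))
        fun x y => Subtype.ext (map_mul π (x : M ≃ₐ[ℚ] M) y)) fun x y e => Subtype.ext
          (hboth (congrArg Subtype.val e) ((hmem x).2.trans (hmem y).2.symm))
    exact (hA.h1Zero _ hp').of_equiv
      (χP.ker.equivMapOfInjective P'.subtype P'.subtype_injective) fun _ _ => rfl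
  obtain ⟨w, hw, hwx⟩ := exists_eq_norm_of_carryN (χ := χP) (γ := γP)
    (Nat.one_lt_pow hm.ne' hp.out.one_lt) hγχ h1 hk
  simp only [Subgroup.smul_def, SubmonoidClass.coe_pow] at hwx
  have hwx' : k • Duality.inclC (bot_le : ⊥ ≤ M) x₀ =
      ∑ i ∈ Finset.range (p ^ m), γ ^ i • w := hwx
  -- a section of the restriction with values in the kernel of the character
  have hsec : ∀ g, ∃ σ, π σ = g ∧ χ σ = 1 := fun g => by
    obtain ⟨σ, hσ⟩ := levelRes_surjective hL g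
    refine ⟨σ * (γ ^ chiVal χ σ)⁻¹, by rw [map_mul, map_inv, map_pow, hγ]; simp [π, hσ], ?_⟩
    rw [map_mul, map_inv, map_pow, hγχ, ← ofAdd_nsmul, nsmul_one, chiVal, ZMod.natCast_zmod_val,
      ofAdd_toAdd, mul_inv_cancel]
  choose s hs1 hs2 using hsec
  have hsρ : ∀ ρ ∈ (P : Subgroup (L ≃ₐ[ℚ] L)), s ρ • w = w := fun ρ hρ =>
    hw ⟨s ρ, by show π (s ρ) ∈ (P : Subgroup (L ≃ₐ[ℚ] L)); rwa [hs1]⟩ (hs2 ρ)
  letI := Fintype.ofFinite ((L ≃ₐ[ℚ] L) ⧸ (P : Subgroup (L ≃ₐ[ℚ] L)))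
  set y : C M := ∑ c : (L ≃ₐ[ℚ] L) ⧸ (P : Subgroup (L ≃ₐ[ℚ] L)), s c.out • w
  have hy : ∀ τ ∈ (levelRes hF).ker, τ • y = y := fun τ hτ => by
    have hτχ : χ τ = 1 := (mem_ker_chiUp b).1 hτ
    rw [Finset.smul_sum]
    refine Fintype.sum_equiv (MulAction.toPerm (π τ)) _ _ fun c => ?_
    set c' := π τ • c
    have hρ : c'.out⁻¹ * (π τ * c.out) ∈ (P : Subgroup (L ≃ₐ[ℚ] L)) :=
      QuotientGroup.eq.1 ((QuotientGroup.out_eq' c').trans (by
        show π τ • c = _
        conv_lhs => rw [← QuotientGroup.out_eq' c]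
        rfl))
    have e : τ * s c.out = s c'.out * s (c'.out⁻¹ * (π τ * c.out)) :=
      hboth (by simp only [map_mul]; rw [hs1, hs1, hs1, mul_inv_cancel_left])
        (by simp only [map_mul]; rw [hτχ, hs2, hs2, hs2])
    rw [smul_smul, e, mul_smul, hsρ _ hρ]
    rfl
  obtain ⟨zF, hzF⟩ := Duality.exists_inclC_eq hF hy
  have hlevel : ∀ i, i < p ^ m → b.galEquiv (levelRes hF (γ ^ i)) =
      Multiplicative.ofAdd (i : ZMod (p ^ m)) := fun i _ => by
    show χ (γ ^ i) = _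
    rw [map_pow, hγχ, ← ofAdd_nsmul, nsmul_one]
  have hnorm : Duality.inclC (bot_le : ⊥ ≤ M) (normC b.fixedChi zF) =
      ∑ i ∈ Finset.range (p ^ m), γ ^ i • y := by
    rw [← inclC_inclC (bot_le : ⊥ ≤ b.fixedChi) hF, inclC_normC, map_sum]
    symm
    refine Finset.sum_bij (fun i _ => levelRes hF (γ ^ i)) (fun _ _ => Finset.mem_univ _)
      (fun i hi i' hi' e => ?_) (fun τ _ => ?_) fun i _ => ?_
    · have h := congrArg b.galEquiv e
      rw [hlevel i (Finset.mem_range.1 hi), hlevel i' (Finset.mem_range.1 hi')] at h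
      have h' := congrArg ZMod.val (Multiplicative.ofAdd.injective h)
      rwa [ZMod.val_cast_of_lt (Finset.mem_range.1 hi),
        ZMod.val_cast_of_lt (Finset.mem_range.1 hi')] at h'
    · refine ⟨(Multiplicative.toAdd (b.galEquiv τ)).val,
        Finset.mem_range.2 (ZMod.val_lt _), b.galEquiv.injective ?_⟩
      rw [hlevel _ (ZMod.val_lt _), ZMod.natCast_zmod_val, ofAdd_toAdd]
    · rw [← hzF, Duality.smul_inclC]
  have hcomm : ∀ (i : ℕ) g, γ ^ i * s g = s g * γ ^ i := fun i g =>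
    hboth (by simp only [map_mul, map_pow]; rw [hγ]; simp)
      (by simp only [map_mul]; rw [mul_comm])
  have hyk : ∑ i ∈ Finset.range (p ^ m), γ ^ i • y = Duality.inclC (bot_le : ⊥ ≤ M)
      (((P : Subgroup (L ≃ₐ[ℚ] L)).index : ℤ) • k • x₀) := by
    have e : ∀ c : (L ≃ₐ[ℚ] L) ⧸ (P : Subgroup (L ≃ₐ[ℚ] L)),
        ∑ i ∈ Finset.range (p ^ m), γ ^ i • s c.out • w =
          Duality.inclC (bot_le : ⊥ ≤ M) (k • x₀) := fun c => by
      have e' : ∀ i : ℕ, γ ^ i • s c.out • w = s c.out • γ ^ i • w := fun i => by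
        rw [smul_smul, hcomm, mul_smul]
      rw [Finset.sum_congr rfl fun i _ => e' i, ← Finset.smul_sum, ← hwx', ← map_zsmul,
        smul_inclC_bot]
    rw [Finset.sum_congr rfl fun i _ => Finset.smul_sum, Finset.sum_comm,
      Finset.sum_congr rfl fun c _ => e c, Finset.sum_const, Finset.card_univ, ← Nat.card_eq_fintype_card, ← Subgroup.index,
      ← natCast_zsmul, ← map_zsmul]
  have h0 := congrArg (psiC b hn) (Duality.inclC_injective _ (hnorm.trans hyk))
  rw [psiC_normC_fixedChi, map_zsmul, map_zsmul, hx₀, smul_smul, zsmul_one, eq_comm,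
    ZMod.intCast_zmod_eq_zero_iff_dvd] at h0
  refine IsCoprime.dvd_of_dvd_mul_left ?_ h0
  rw [Int.isCoprime_iff_nat_coprime, Int.natAbs_natCast, Int.natAbs_natCast]
  exact Nat.Coprime.pow_left m (hp.out.coprime_iff_not_dvd.2 P.not_dvd_index)

omit m in
set_option maxHeartbeats 1000000 in
/-- The idele classes of `L` form a class formation at `p`. -/
theorem globalFormation (hp2 : p ≠ 2) (L : IntermediateField ℚ QBar) [FiniteDimensional ℚ L]
    [Normal ℚ L] {ζ : L} (hζ : IsPrimitiveRoot ζ p) : GlobalFormationProperty p L := by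
  classical
  set m := (Nat.card (L ≃ₐ[ℚ] L)).factorization p
  have hn : Odd (p ^ m) := (hp.out.odd_of_ne_two hp2).pow
  obtain ⟨T, hT⟩ := exists_finset_unramified L
  obtain ⟨b, hb⟩ := exists_aux (p ^ m) T
  have hq := hT _ hb
  haveI : Normal ℚ b.fixedChi := IsGalois.to_normal
  set M := L ⊔ b.fixedChi
  haveI : Normal ℚ M :=
    @IntermediateField.normal_sup ℚ QBar _ _ _ L b.fixedChi ‹Normal ℚ L› ‹Normal ℚ b.fixedChi›
  have hL : L ≤ M := le_sup_left
  have hF : b.fixedChi ≤ M := le_sup_right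
  have hζM : IsPrimitiveRoot (IntermediateField.inclusion hL ζ) p :=
    hζ.map_of_injective (f := IntermediateField.inclusion hL)
      (IntermediateField.inclusion hL).injective
  have hAM := stepAxioms M hp2 hζM
  have hboth : ∀ {σ τ : M ≃ₐ[ℚ] M}, levelRes hL σ = levelRes hL τ →
      chiUp b hF σ = chiUp b hF τ → σ = τ := fun h1 h2 =>
    eq_of_restrictions b hL hF le_rfl h1 h2
  obtain ⟨γ, hγ, hγχ⟩ := exists_ker_chiUp_eq b hL hF hq (Multiplicative.ofAdd 1)
  have hpow : ∀ σ, levelRes hL σ = 1 → γ ^ chiVal (chiUp b hF) σ = σ := fun σ hσ =>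
    hboth (by rw [map_pow, hγ, one_pow, hσ]) (by
      rw [map_pow, hγχ, ← ofAdd_nsmul, nsmul_one, chiVal, ZMod.natCast_zmod_val, ofAdd_toAdd])
  have hgen : (levelRes hL).ker = Subgroup.zpowers γ :=
    le_antisymm (fun σ hσ => hpow σ hσ ▸ Subgroup.npow_mem_zpowers γ _)
      (Subgroup.zpowers_le.2 hγ)
  have hord : orderOf γ = p ^ m := by
    have h1 : orderOf (chiUp b hF γ) = p ^ m := by
      rw [hγχ, orderOf_ofAdd_eq_addOrderOf, ZMod.addOrderOf_one]
    refine Nat.dvd_antisymm (orderOf_dvd_of_pow_eq_one (hboth ?_ ?_)) (h1 ▸ orderOf_map_dvd _ γ)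
    · rw [map_pow, hγ, one_pow, map_one]
    · rw [map_pow, map_one, hγχ, ← ofAdd_nsmul, nsmul_one, ZMod.natCast_self]
      rfl
  obtain ⟨z, hz⟩ := exists_psiC_normC_eq_one b hn hq
  obtain ⟨w, hw⟩ := exists_norm_of_psi b hn hL hF hAM (Nat.ordProj_dvd _ p) hγ hord hgen hz
  set x := Duality.inclC (bot_le : ⊥ ≤ M) (normC L z)
  set χ := chiUp b hF
  have hc : IsCocycle₂ (carryN χ x) := isCocycle₂_carryN fun σ => smul_inclC_bot σ _
  have hres : IsCoboundary₂ fun gh : (levelRes hL).ker × (levelRes hL).ker =>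
      carryN χ x ((gh.1 : M ≃ₐ[ℚ] M), (gh.2 : M ≃ₐ[ℚ] M)) := by
    have h := carryN_norm_mem (χ := χ.comp (levelRes hL).ker.subtype)
      (γ := (⟨γ, hγ⟩ : (levelRes hL).ker)) hγχ w fun k hk => by
        rw [show k = 1 from Subtype.ext (hboth
          (((MonoidHom.mem_ker).1 k.2).trans (map_one _).symm) (hk.trans (map_one _).symm))]
        exact one_smul _ w
    rw [show (∑ i ∈ Finset.range (p ^ m), (⟨γ, hγ⟩ : (levelRes hL).ker) ^ i • w) = x from
      hw.symm] at h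
    exact h
  have hkerP : IsPGroup p (levelRes hL).ker :=
    IsPGroup.of_card (n := m) (by rw [hgen, Nat.card_zpowers, hord])
  obtain ⟨c₀, hc₀, hdiff⟩ := exists_descend₂ (levelRes hL) (levelRes_surjective hL)
    (Duality.inclC hL) (Duality.inclC_injective hL) (fun g y => Duality.smul_inclC hL g y)
    (fun y hy => Duality.exists_inclC_eq hL fun σ hσ => hy ⟨σ, hσ⟩)
    (hAM.h1Zero _ hkerP) (carryN χ x) hc hres
  let β : (L ≃ₐ[ℚ] L) → C L := fun _ => c₀ (1, 1)
  refine ⟨⟨c₀ - dOne β, isCocycle₂_sub hc₀ (isCocycle₂_dOne β), fun g => ?_⟩,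
    (stepAxioms L hp2 hζ).isClassFormation _ fun P k hk => ?_⟩
  · simp [dOne, β, map_one_fst_of_isCocycle₂ hc₀ g]
  rw [Sylow.card_eq_multiplicity]
  refine dvd_of_coboundary b hn hL hF hAM hγ hγχ hboth hz P k ?_
  obtain ⟨e, he⟩ := hk
  obtain ⟨d, hd⟩ := hdiff
  let π' : ((P : Subgroup (L ≃ₐ[ℚ] L)).comap (levelRes hL)) → (P : Subgroup (L ≃ₐ[ℚ] L)) :=
    fun g => ⟨levelRes hL g, g.2⟩
  refine ⟨fun g => k • d g + Duality.inclC hL (e (π' g) + k • β (π' g)), fun g h => ?_⟩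
  have h1 := he (π' g) (π' h)
  have h2 := hd (g : M ≃ₐ[ℚ] M) h
  have hπ : π' (g * h) = π' g * π' h := Subtype.ext (map_mul _ _ _)
  simp only [Pi.sub_apply, dOne] at h1 h2
  rw [← zsmul_carryN]
  show _ = k • carryN χ x ((g : M ≃ₐ[ℚ] M), (h : M ≃ₐ[ℚ] M))
  rw [eq_sub_iff_add_eq] at h2
  have h1' : k • c₀ (levelRes hL g, levelRes hL h) = (π' g) • (e (π' h) + k • β (π' h)) -
      (e (π' (g * h)) + k • β (π' (g * h))) + (e (π' g) + k • β (π' g)) := by
    rw [smul_sub, eq_sub_iff_add_eq] at h1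
    rw [hπ]
    simp only [Subgroup.smul_def, Subgroup.coe_mul, π', smul_add, smul_sub,
      smul_comm _ k] at h1 ⊢
    rw [← h1]
    abel
  dsimp only
  rw [← h2, smul_add k, ← map_zsmul (Duality.inclC hL) k, h1']
  simp only [Subgroup.smul_def, Subgroup.coe_mul, map_add, map_sub, map_zsmul, smul_add, smul_sub,
    smul_comm _ k, ← Duality.smul_inclC, π']
  abel

end Fermat.Agent.CFT.Form
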