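import Fermat.Agent.CFT.Idele.CycChar
import Fermat.Agent.Arith.Chebotarev.Main
import Mathlib.FieldTheory.KummerExtension
import Mathlib.RingTheory.Polynomial.Cyclotomic.Roots

/-!
# An auxiliary prime at which a given prime is not a `p`-th power

For `p` odd and a prime `q` there is a prime `l ≡ 1` modulo `p ^ k` with a logarithm modulo it
sending `q` to the generator.
-/

set_option autoImplicit false
set_option linter.style.haveILetI false

noncomputable section

namespace Fermat.Agent.CFT.Form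

open ExtCitation Fermat.Agent.Arith IntermediateField Fermat.Agent.CFT.Idele

theorem rat_pow_ne_prime {p : ℕ} (hp : 1 < p) (q : Nat.Primes) (b : ℚ) : b ^ p ≠ ((q : ℕ) : ℚ) := by
  intro h
  haveI : Fact (q : ℕ).Prime := ⟨q.2⟩
  have h1 := congrArg (padicValRat (q : ℕ)) h
  rw [padicValRat.pow, padicValRat.self q.2.one_lt] at h1
  have h2 : (p : ℤ) ∣ 1 := ⟨_, h1.symm⟩
  have h3 := Int.le_of_dvd one_pos h2
  omega

/-- Some automorphism fixes all the roots of unity of order `n` and moves a `p`-th root of `q`. -/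
theorem exists_fix_move {p : ℕ} [hp : Fact p.Prime] (hp2 : p ≠ 2) (q : Nat.Primes) {n : ℕ} [NeZero n]
    {ξ : QBar} (hξ : IsPrimitiveRoot ξ n) {r : QBar} (hr : r ^ p = ((q : ℕ) : QBar)) :
    ∃ c : GQ, c ξ = ξ ∧ c r ≠ r := by
  obtain ⟨ζ, hζ⟩ := HasEnoughRootsOfUnity.exists_primitiveRoot QBar p
  have hr0 : r ≠ 0 := fun h => by
    rw [h, zero_pow hp.out.ne_zero] at hr
    exact q.2.ne_zero (Nat.cast_eq_zero.mp hr.symm)
  -- an automorphism moving `ζ`
  obtain ⟨t, ht⟩ : ∃ t : GQ, t ζ ≠ ζ := by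
    by_contra hne
    push Not at hne
    have hbot : ζ ∈ (⊥ : IntermediateField ℚ QBar) := by
      rw [← InfiniteGalois.fixedField_fixingSubgroup (⊥ : IntermediateField ℚ QBar),
        IntermediateField.mem_fixedField_iff]
      exact fun g _ => hne g
    obtain ⟨x, hx⟩ := IntermediateField.mem_bot.mp hbot
    have hxp : x ^ p = 1 := (algebraMap ℚ QBar).injective (by
      rw [map_pow, hx, hζ.pow_eq_one, map_one])
    have hx1 : x = 1 := (hp.out.odd_of_ne_two hp2).pow_injective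
      (show x ^ p = 1 ^ p by rw [hxp, one_pow])
    exact hζ.ne_one hp.out.one_lt (by rw [← hx, hx1, map_one])
  -- an automorphism fixing `ζ` and moving `r`
  obtain ⟨s, hsζ, hsr⟩ : ∃ s : GQ, s ζ = ζ ∧ s r ≠ r := by
    by_contra hne
    push Not at hne
    have hmem : r ∈ IntermediateField.adjoin ℚ ({ζ} : Set QBar) := by
      rw [← InfiniteGalois.fixedField_fixingSubgroup (IntermediateField.adjoin ℚ ({ζ} : Set QBar)),
        IntermediateField.mem_fixedField_iff]
      exact fun g hg => hne g ((IntermediateField.mem_fixingSubgroup_iff _ _).mp hg ζ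
        (IntermediateField.mem_adjoin_simple_self ℚ ζ))
    have hint : IsIntegral ℚ r := Algebra.IsIntegral.isIntegral r
    have hmin : minpoly ℚ r = Polynomial.X ^ p - Polynomial.C ((q : ℕ) : ℚ) :=
      (minpoly.eq_of_irreducible_of_monic
        (X_pow_sub_C_irreducible_of_prime hp.out fun b => rat_pow_ne_prime hp.out.one_lt q b)
        (by simp [hr]) (Polynomial.monic_X_pow_sub_C _ hp.out.ne_zero)).symm
    haveI := IntermediateField.adjoin.finiteDimensional (Algebra.IsIntegral.isIntegral (R := ℚ) ζ)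
    set r' : IntermediateField.adjoin ℚ ({ζ} : Set QBar) := ⟨r, hmem⟩
    have hint' : IsIntegral ℚ r' := Algebra.IsIntegral.isIntegral r'
    have hd := minpoly.degree_dvd hint'
    rw [show minpoly ℚ r' = minpoly ℚ r from
      (minpoly.algHom_eq (IntermediateField.adjoin ℚ ({ζ} : Set QBar)).val
        (IntermediateField.adjoin ℚ ({ζ} : Set QBar)).val.injective r').symm, hmin,
      Polynomial.natDegree_X_pow_sub_C,
      IntermediateField.adjoin.finrank (Algebra.IsIntegral.isIntegral ζ),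
      ← Polynomial.cyclotomic_eq_minpoly_rat hζ hp.out.pos, Polynomial.natDegree_cyclotomic,
      Nat.totient_prime hp.out] at hd
    have := Nat.le_of_dvd (by have := hp.out.two_le; omega) hd
    have := hp.out.two_le
    omega
  haveI : NeZero p := ⟨hp.out.ne_zero⟩
  have hroot : ∀ g : GQ, ∃ i < p, g r = ζ ^ i * r := fun g => by
    obtain ⟨i, hi, e⟩ := hζ.eq_pow_of_pow_eq_one (ξ := g r / r)
      (by rw [div_pow, ← map_pow, hr, map_natCast, div_self (Nat.cast_ne_zero.mpr q.2.ne_zero)])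
    exact ⟨i, hi, (eq_div_iff hr0).1 e |>.symm⟩
  obtain ⟨b, hb, hsb⟩ := hroot s
  obtain ⟨j, hj, htj⟩ := hroot t
  obtain ⟨a, -, hta⟩ := hζ.eq_pow_of_pow_eq_one (ξ := t ζ)
    (by rw [← map_pow, hζ.pow_eq_one, map_one])
  obtain ⟨u, -, hsu⟩ := hξ.eq_pow_of_pow_eq_one (ξ := s ξ)
    (by rw [← map_pow, hξ.pow_eq_one, map_one])
  obtain ⟨v, -, htv⟩ := hξ.eq_pow_of_pow_eq_one (ξ := t ξ)
    (by rw [← map_pow, hξ.pow_eq_one, map_one])
  refine ⟨(t * s)⁻¹ * (s * t), ?_, fun h => ht ?_⟩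
  · rw [AlgEquiv.mul_apply]
    have e : (s * t) ξ = (t * s) ξ := by
      rw [AlgEquiv.mul_apply, AlgEquiv.mul_apply, ← htv, ← hsu, map_pow, map_pow, ← hsu, ← htv,
        pow_right_comm]
    rw [e]
    exact (t * s).symm_apply_apply ξ
  · rw [AlgEquiv.mul_apply] at h
    have e : (s * t) r = (t * s) r := by
      have := congrArg (t * s) h
      rwa [show (t * s) ((t * s)⁻¹ ((s * t) r)) = (s * t) r from
        (t * s).apply_symm_apply _] at this
    rw [AlgEquiv.mul_apply, AlgEquiv.mul_apply, htj, hsb, map_mul, map_mul, map_pow, map_pow,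
      hsζ, hsb, htj, ← mul_assoc, ← mul_assoc] at e
    have e' : (t ζ) ^ b = ζ ^ b := by
      have h2 : (ζ ^ b) * (ζ ^ j) = (t ζ) ^ b * ζ ^ j :=
        mul_right_cancel₀ hr0 (by rw [mul_comm (ζ ^ b) (ζ ^ j)]; exact e)
      exact (mul_right_cancel₀ (pow_ne_zero _ (hζ.ne_zero hp.out.ne_zero)) h2).symm
    have hco : Nat.Coprime b p := by
      refine ((hp.out.coprime_iff_not_dvd).2 fun hd => hsr ?_).symm
      rw [hsb, Nat.eq_zero_of_dvd_of_lt hd hb, pow_zero, one_mul]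
    obtain ⟨x, -, hx⟩ := Nat.exists_mul_mod_eq_one_of_coprime hco hp.out.one_lt
    have h1 : ∀ z : QBar, z ^ p = 1 → (z ^ b) ^ x = z := fun z hz => by
      rw [← pow_mul, ← Nat.mod_add_div (b * x) p, hx, pow_add, pow_mul, hz, one_pow, mul_one,
        pow_one]
    rw [← h1 (t ζ) (by rw [← map_pow, hζ.pow_eq_one, map_one]), e', h1 ζ hζ.pow_eq_one]

/-- A prime `l ≡ 1` modulo `n` outside a finite set at which `q` is not a `p`-th power. -/
theorem exists_prime_not_pow {p : ℕ} [hp : Fact p.Prime] (hp2 : p ≠ 2) (q : Nat.Primes) {n : ℕ}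
    [NeZero n] (hpn : p ∣ n) (S : Finset ℕ) :
    ∃ l : Nat.Primes, (l : ℕ) ∉ S ∧ l ≠ q ∧ n ∣ (l : ℕ) - 1 ∧
      ((q : ℕ) : ZMod (l : ℕ)) ^ (((l : ℕ) - 1) / p) ≠ 1 := by
  obtain ⟨ξ, hξ⟩ := HasEnoughRootsOfUnity.exists_primitiveRoot QBar n
  obtain ⟨r, hr⟩ := IsAlgClosed.exists_pow_nat_eq (((q : ℕ) : QBar)) hp.out.pos
  obtain ⟨c, hcξ, hcr⟩ := exists_fix_move hp2 q hξ hr
  set F : IntermediateField ℚ QBar := IntermediateField.adjoin ℚ ({ξ, r} : Set QBar)
  haveI : FiniteDimensional ℚ F := IntermediateField.finiteDimensional_adjoin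
    fun x _ => Algebra.IsIntegral.isIntegral x
  set L' : IntermediateField ℚ QBar := IntermediateField.normalClosure ℚ F QBar
  haveI : Normal ℚ L' := normalClosure.normal ℚ F QBar
  haveI : IsGalois ℚ L' := ⟨⟩
  obtain ⟨l, hl, hlS, A, hA, σ, hσ, he⟩ :=
    Chebotarev.exists_frobenius_restrict_eq L' c (S ∪ n.divisors ∪ {(q : ℕ)})
  simp only [Finset.mem_union, Finset.mem_singleton, not_or] at hlS
  obtain ⟨⟨hlS, hln⟩, hlq⟩ := hlS
  haveI : Fact l.Prime := ⟨hl⟩
  have hagree : ∀ x ∈ F, σ x = c x := fun x hx => by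
    have h1 := congrArg Subtype.val (DFunLike.congr_fun he ⟨x, F.le_normalClosure hx⟩)
    exact (AlgEquiv.restrictNormal_commutes σ L' ⟨x, F.le_normalClosure hx⟩).symm.trans
      (h1.trans (AlgEquiv.restrictNormal_commutes c L' ⟨x, F.le_normalClosure hx⟩))
  have hσξ : σ ξ = ξ :=
    (hagree ξ (IntermediateField.subset_adjoin _ _ (Set.mem_insert _ _))).trans hcξ
  have hσr : σ r ≠ r := fun h => hcr (((hagree r (IntermediateField.subset_adjoin _ _
    (Set.mem_insert_of_mem _ rfl))).symm.trans h))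
  have hndvd : ¬ l ∣ n := fun h => hln (Nat.mem_divisors.2 ⟨h, NeZero.ne n⟩)
  have hl1 : n ∣ l - 1 := by
    refine hξ.dvd_of_pow_eq_one _ (mul_left_injective₀ (hξ.ne_zero (NeZero.ne n)) ?_)
    show ξ ^ (l - 1) * ξ = 1 * ξ
    rw [← pow_succ, Nat.sub_add_cancel hl.one_le, one_mul,
      ← frobenius_root hA hl hσ hξ.pow_eq_one hndvd, hσξ]
  refine ⟨⟨l, hl⟩, hlS, fun h => hlq (congrArg Subtype.val h), hl1, fun hpow => hσr ?_⟩
  have hrint : IsIntegral ℤ r := IsIntegral.of_pow hp.out.pos (hr ▸ isIntegral_natCast _)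
  have hrA := mem_of_isIntegral A hrint
  have hqu : ((q : ℕ) : QBar) ∉ A.nonunits := fun h => hlq
    ((Nat.prime_dvd_prime_iff_eq hl q.2).1 ((natCast_mem_nonunits_iff hA hl _).1 h))
  have hfr := (isFrobeniusAt_iff hA hl).1 hσ r hrint
  set m := (l - 1) / p with hm
  have hpm : p * m = l - 1 := Nat.mul_div_cancel' (hpn.trans hl1)
  have hcast : (((q : ℕ) ^ m - 1 : ℤ) : ZMod l) = 0 := by
    push_cast
    rw [hpow, sub_self]
  obtain ⟨w, hw⟩ := (ZMod.intCast_zmod_eq_zero_iff_dvd _ _).1 hcast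
  have hqm : ((q : ℕ) : QBar) ^ m - 1 ∈ A.nonunits := by
    have h' := congrArg (Int.cast : ℤ → QBar) hw
    push_cast at h'
    rw [h', mul_comm]
    exact nonunits_mul_left (mem_of_isIntegral A (isIntegral_intCast _)) hA
  have hrl : r ^ l - r ∈ A.nonunits := by
    rw [show r ^ l - r = r * (((q : ℕ) : QBar) ^ m - 1) by
      rw [← hr, ← pow_mul, hpm, mul_sub, mul_one, ← pow_succ', Nat.sub_add_cancel hl.one_le]]
    exact nonunits_mul_left hrA hqm
  have hσrr : σ r - r ∈ A.nonunits := by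
    rw [show σ r - r = (σ r - r ^ l) + (r ^ l - r) by ring]
    exact add_mem hfr hrl
  have hr0 : r ≠ 0 := fun h => by
    rw [h, zero_pow hp.out.ne_zero] at hr
    exact q.2.ne_zero (Nat.cast_eq_zero.mp hr.symm)
  have hrinv : r⁻¹ ∈ A := by
    obtain ⟨-, hqi⟩ := (notMem_nonunits_iff (natCast_mem A _)).1 hqu
    rw [show r⁻¹ = ((q : ℕ) : QBar)⁻¹ * r ^ (p - 1) by
      rw [← hr]
      conv_rhs => rw [show p = (p - 1) + 1 by have := hp.out.one_le; omega, pow_succ, mul_inv]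
      rw [Nat.add_sub_cancel]
      field_simp]
    exact mul_mem hqi (pow_mem hrA _)
  have h1 : σ r / r = 1 := by
    refine root_eq_one_of_sub_one_mem_nonunits hA hl (m := p) ?_
      (fun hd => hndvd (hd.trans hpn)) ?_
    · rw [div_pow, ← map_pow, hr, map_natCast, div_self (Nat.cast_ne_zero.mpr q.2.ne_zero)]
    · rw [show σ r / r - 1 = (σ r - r) * r⁻¹ by field_simp]
      exact nonunits_mul_right hσrr hrinv
  exact (div_eq_one_iff_eq hr0).1 h1

/-- An auxiliary prime whose logarithm sends `q` to the generator. -/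
theorem exists_aux_generator {p : ℕ} [hp : Fact p.Prime] (hp2 : p ≠ 2) (q : Nat.Primes) {k : ℕ}
    (hk : 0 < k) : ∃ (a : Aux (p ^ k)) (h : q ≠ a.q),
      a.log (a.unitOf (a.not_dvd_of_ne h)) = Multiplicative.ofAdd 1 := by
  classical
  haveI : NeZero (p ^ k) := ⟨pow_ne_zero _ hp.out.ne_zero⟩
  obtain ⟨l, -, hlq, hdvd, hpow⟩ :=
    exists_prime_not_pow hp2 q (dvd_pow_self p hk.ne') (∅ : Finset ℕ)
  haveI : Fact (l : ℕ).Prime := ⟨l.2⟩
  haveI : IsCyclic (ZMod (l : ℕ))ˣ := inferInstance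
  have hc : Nat.card (ZMod (l : ℕ))ˣ = Nat.card (Multiplicative (ZMod ((l : ℕ) - 1))) := by
    rw [Nat.card_congr Multiplicative.toAdd, Nat.card_zmod, Nat.card_eq_fintype_card,
      ZMod.card_units]
  let e := mulEquivOfCyclicCardEq hc
  set xu : (ZMod (l : ℕ))ˣ := ZMod.unitOfCoprime (q : ℕ)
    ((Nat.coprime_primes q.2 l.2).2 fun h => hlq (Subtype.ext h.symm)) with hxu
  set z : ZMod ((l : ℕ) - 1) := Multiplicative.toAdd (e xu) with hz
  haveI : NeZero ((l : ℕ) - 1) := ⟨by have := l.2.two_le; omega⟩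
  have hpl : p ∣ (l : ℕ) - 1 := (dvd_pow_self p hk.ne').trans hdvd
  have hnd : ¬ p ∣ z.val := fun hd => hpow (by
    obtain ⟨w, hw⟩ := hd
    have h1 : e (xu ^ (((l : ℕ) - 1) / p)) = 1 := by
      rw [map_pow, ← ofAdd_toAdd (e xu), ← ofAdd_nsmul, ← hz, ← ofAdd_zero]
      congr 1
      rw [← ZMod.natCast_zmod_val z, hw, nsmul_eq_mul, ← Nat.cast_mul, ← mul_assoc,
        Nat.div_mul_cancel hpl, Nat.cast_mul, ZMod.natCast_self, zero_mul]
    have h2 := congrArg (fun u : (ZMod (l : ℕ))ˣ => (u : ZMod (l : ℕ)))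
      (e.injective (h1.trans (map_one e).symm))
    simpa [hxu, Units.val_pow_eq_pow_val, ZMod.coe_unitOfCoprime] using h2)
  set y : ZMod (p ^ k) := ZMod.castHom hdvd (ZMod (p ^ k)) z with hy
  have hyu : IsUnit y := by
    rw [hy, ← ZMod.natCast_zmod_val z, map_natCast, ZMod.isUnit_iff_coprime]
    exact Nat.Coprime.pow_right k ((hp.out.coprime_iff_not_dvd).2 hnd).symm
  obtain ⟨u, hu⟩ := hyu
  let f : Multiplicative (ZMod ((l : ℕ) - 1)) →* Multiplicative (ZMod (p ^ k)) :=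
    AddMonoidHom.toMultiplicative ((AddMonoidHom.mulLeft ((u⁻¹ : (ZMod (p ^ k))ˣ) : ZMod (p ^ k))).comp
      (ZMod.castHom hdvd (ZMod (p ^ k))).toAddMonoidHom)
  have hf : Function.Surjective f := fun x => by
    obtain ⟨w, hw⟩ := ZMod.ringHom_surjective (ZMod.castHom hdvd (ZMod (p ^ k)))
      ((u : ZMod (p ^ k)) * x.toAdd)
    refine ⟨Multiplicative.ofAdd w, ?_⟩
    show Multiplicative.ofAdd (((u⁻¹ : (ZMod (p ^ k))ˣ) : ZMod (p ^ k)) *
      ZMod.castHom hdvd (ZMod (p ^ k)) w) = x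
    rw [hw, ← mul_assoc, Units.inv_mul, one_mul, ofAdd_toAdd]
  refine ⟨⟨l, f.comp e.toMonoidHom, hf.comp e.surjective⟩, fun h => hlq h.symm, ?_⟩
  show f (e _) = _
  rw [show Aux.unitOf (⟨l, f.comp e.toMonoidHom, hf.comp e.surjective⟩ : Aux (p ^ k))
    (Aux.not_dvd_of_ne _ (fun h => hlq h.symm)) = xu from
      Units.ext (by rw [Aux.coe_unitOf, hxu, ZMod.coe_unitOfCoprime])]
  show Multiplicative.ofAdd (((u⁻¹ : (ZMod (p ^ k))ˣ) : ZMod (p ^ k)) *
      ZMod.castHom hdvd (ZMod (p ^ k)) z) = _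
  rw [← hy, ← hu, Units.inv_mul]

end Fermat.Agent.CFT.Form
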