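import Fermat.Agent.CFT.Idele.Carry
import Mathlib.GroupTheory.Coset.Card

/-!
# Carry cocycles of norms, sums over cosets, and step axioms along an injective homomorphism
-/

set_option autoImplicit false
set_option linter.unusedSectionVars false
set_option linter.style.haveILetI false

noncomputable section

namespace Fermat.Agent.CFT.Form

open groupCohomology Fermat.Agent.CFT.Idele

variable {G A : Type*} [Group G] [AddCommGroup A] [DistribMulAction G A]

theorem mod_carry_identity {n u r s u' : ℕ} (hu : u < n) (hr : r < n) (hs : s < n)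
    (hu' : u' < n) (h : (r + u') % n = u) :
    ((if u' < s then 1 else 0 : ℤ) - (if u < (r + s) % n then 1 else 0)) +
      (if u < r then 1 else 0) = (((r + s) / n : ℕ) : ℤ) := by
  rcases Nat.lt_or_ge (r + u') n with h1 | h1 <;> rcases Nat.lt_or_ge (r + s) n with h2 | h2
  all_goals first
    | rw [Nat.mod_eq_of_lt h1] at h
    | rw [Nat.mod_eq_sub_mod h1, Nat.mod_eq_of_lt (by omega)] at h
  all_goals first
    | rw [Nat.mod_eq_of_lt h2, Nat.div_eq_of_lt h2]
    | rw [Nat.mod_eq_sub_mod h2, Nat.mod_eq_of_lt (by omega : r + s - n < n),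
        Nat.div_eq_of_lt_le (k := 1) (by omega) (by omega)]
  all_goals split_ifs <;> omega

/-- The carry cocycle of a norm of a finite group is a coboundary. -/
theorem isCoboundary₂_carryN_normSum [Fintype G] {n : ℕ} [NeZero n]
    (χ : G →* Multiplicative (ZMod n)) (w : A) :
    IsCoboundary₂ (carryN χ (normSum G A w)) := by
  refine ⟨fun a => ∑ h : G, (if chiVal χ h < chiVal χ a then (1 : ℤ) else 0) • (h • w),
    fun a b => ?_⟩
  have e : a • ∑ h : G, (if chiVal χ h < chiVal χ b then (1 : ℤ) else 0) • (h • w) =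
      ∑ h : G, (if chiVal χ (a⁻¹ * h) < chiVal χ b then (1 : ℤ) else 0) • (h • w) := by
    rw [Finset.smul_sum]
    refine Fintype.sum_equiv (Equiv.mulLeft a) _ _ fun h => ?_
    rw [smul_comm, smul_smul, show (Equiv.mulLeft a) h = a * h from rfl, inv_mul_cancel_left]
  show _ - _ + _ = ((chiVal χ a + chiVal χ b) / n) • normSum G A w
  rw [e, ← Finset.sum_sub_distrib, ← Finset.sum_add_distrib, normSum, ← natCast_zsmul,
    Finset.smul_sum]
  refine Finset.sum_congr rfl fun h _ => ?_
  rw [← sub_smul, ← add_smul, chiVal_mul χ a b]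
  congr 1
  refine mod_carry_identity (chiVal_lt χ h) (chiVal_lt χ a) (chiVal_lt χ b)
    (chiVal_lt χ (a⁻¹ * h)) ?_
  rw [← chiVal_mul, mul_inv_cancel_left]

/-- The sum over the cosets of a subgroup. -/
def sumQ [Finite G] (K : Subgroup G) (w : A) : A :=
  letI := Fintype.ofFinite (G ⧸ K)
  ∑ x : G ⧸ K, x.out • w

variable {K : Subgroup G} {w : A}

theorem smul_eq_of_mk_eq (hw : ∀ k ∈ K, k • w = w) {g g' : G}
    (h : (QuotientGroup.mk g : G ⧸ K) = QuotientGroup.mk g') : g • w = g' • w := by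
  have h' := hw _ (QuotientGroup.eq.1 h)
  conv_lhs => rw [← h']
  rw [smul_smul, mul_inv_cancel_left]

theorem out_smul_eq (hw : ∀ k ∈ K, k • w = w) (g : G) :
    (QuotientGroup.mk g : G ⧸ K).out • w = g • w :=
  smul_eq_of_mk_eq hw (QuotientGroup.out_eq' _)

theorem smul_sumQ [Finite G] (hw : ∀ k ∈ K, k • w = w) (g : G) :
    g • sumQ K w = sumQ K w := by
  letI := Fintype.ofFinite (G ⧸ K)
  rw [sumQ, Finset.smul_sum]
  refine Fintype.sum_equiv (MulAction.toPerm g) _ _ fun x => ?_
  obtain ⟨y, rfl⟩ := QuotientGroup.mk_surjective x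
  rw [MulAction.toPerm_apply, MulAction.Quotient.smul_mk, out_smul_eq hw, out_smul_eq hw,
    smul_eq_mul, mul_smul]

/-- A transversal of `K` in `H` computes sums over cosets in two steps. -/
theorem sumQ_tower [Finite G] {H : Subgroup G} (hKH : K ≤ H) (hw : ∀ k ∈ K, k • w = w)
    {ι : Type*} [Fintype ι] (f : ι → G) (hfH : ∀ i, f i ∈ H)
    (hinj : ∀ i j, (f i)⁻¹ * f j ∈ K → i = j) (hsurj : ∀ h ∈ H, ∃ i, (f i)⁻¹ * h ∈ K) :
    sumQ K w = sumQ H (∑ i, f i • w) := by
  letI := Fintype.ofFinite (G ⧸ K)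
  letI := Fintype.ofFinite (G ⧸ H)
  rw [sumQ, sumQ]
  simp only [Finset.smul_sum]
  rw [← Fintype.sum_prod_type']
  refine (Fintype.sum_bijective (fun x : (G ⧸ H) × ι => (QuotientGroup.mk (x.1.out * f x.2) : G ⧸ K))
    ⟨fun x y hxy => ?_, fun z => ?_⟩ _ _ fun x => ?_).symm
  · have hK := QuotientGroup.eq.1 hxy
    have hH : (x.1.out)⁻¹ * y.1.out ∈ H := by
      have := H.mul_mem (H.mul_mem (hfH x.2) (hKH hK)) (H.inv_mem (hfH y.2))
      convert this using 1
      group
    have e1 : x.1 = y.1 := by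
      rw [← QuotientGroup.out_eq' x.1, ← QuotientGroup.out_eq' y.1]
      exact QuotientGroup.eq.2 hH
    refine Prod.ext e1 (hinj _ _ ?_)
    rw [e1] at hK
    convert hK using 1
    group
  · obtain ⟨σ, rfl⟩ := QuotientGroup.mk_surjective z
    have hh : ((QuotientGroup.mk σ : G ⧸ H).out)⁻¹ * σ ∈ H :=
      QuotientGroup.eq.1 (QuotientGroup.out_eq' _)
    obtain ⟨i, hi⟩ := hsurj _ hh
    refine ⟨(QuotientGroup.mk σ, i), QuotientGroup.eq.2 ?_⟩
    convert hi using 1
    group
  · rw [out_smul_eq hw, mul_smul]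

/-- The step axioms along an injective homomorphism. -/
theorem stepAxioms_comap {G' : Type*} [Group G'] [DistribMulAction G' A] {p : ℕ}
    [hp : Fact p.Prime] (j : G →* G') (hj : Function.Injective j)
    (hja : ∀ (g : G) (a : A), g • a = j g • a) (hA : CFT.StepAxioms p G' A) :
    CFT.StepAxioms p G A := by
  have hstep : ∀ {H K : Subgroup G} {g : G}, CFT.IsStep p H K g →
      CFT.IsStep p (H.map j) (K.map j) (j g) := fun {H K g} hs =>
    { le := Subgroup.map_mono hs.le
      mem := Subgroup.mem_map_of_mem j hs.mem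
      notMem := fun h => hs.notMem ((Subgroup.mem_map_iff_mem hj).1 h)
      isPGroup := hs.isPGroup.map j
      relIndex := by rw [Subgroup.relIndex_map_map_of_injective _ _ hj, hs.relIndex] }
  have hnorm : ∀ (g : G) (a : A), CFT.stepNorm p (j g) a = CFT.stepNorm p g a := fun g a => by
    simp only [CFT.stepNorm, hja, map_pow]
  refine ⟨fun H K g hs a ha hN => ?_, fun H K g hs => ?_⟩
  · obtain ⟨b, hb, hbe⟩ := hA.h1 _ _ _ (hstep hs) a
      (by rintro _ ⟨k, hk, rfl⟩; rw [← hja]; exact ha k hk) (by rw [hnorm, hN])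
    exact ⟨b, fun k hk => by rw [hja]; exact hb _ (Subgroup.mem_map_of_mem j hk),
      by rw [hja]; exact hbe⟩
  · obtain ⟨x₀, hx₀, hgen⟩ := hA.index_le _ _ _ (hstep hs)
    refine ⟨x₀, fun h hh => by rw [hja]; exact hx₀ _ (Subgroup.mem_map_of_mem j hh), fun x hx => ?_⟩
    obtain ⟨m, b, hb, e⟩ := hgen x (by rintro _ ⟨h, hh, rfl⟩; rw [← hja]; exact hx h hh)
    exact ⟨m, b, fun k hk => by rw [hja]; exact hb _ (Subgroup.mem_map_of_mem j hk),
      by rw [← hnorm]; exact e⟩

end Fermat.Agent.CFT.Form
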