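import Fermat.Agent.CFT.Form.LocalRes
import Fermat.Agent.CFT.Form.LocalCarry
import Fermat.Agent.CFT.Idele.PsiNorm
import Fermat.Agent.CFT.Local.Unramified

/-!
# The local class

For `L' ⊇ L` generated by `L` and the cyclic field of an auxiliary prime `a ≠ q` with `log q = 1`,
the carry cocycle of `q` on `Gal(E'/ℚ_q)` descends to a class `u` of `Gal(E/ℚ_q)`.
-/

set_option autoImplicit false
set_option synthInstance.maxHeartbeats 200000
set_option linter.unusedSectionVars false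
set_option linter.style.haveILetI false

noncomputable section

namespace Fermat.Agent.CFT.Form

open ExtCitation Fermat.Agent.Arith IntermediateField Fermat.Agent.CFT.Local Fermat.Agent.CFT.Idele
open groupCohomology

local instance factPrimeLocalClass (q : Nat.Primes) : Fact (q : ℕ).Prime := ⟨q.2⟩

variable {n : ℕ} [NeZero n] {L L' : IntermediateField ℚ QBar} [FiniteDimensional ℚ L] [Normal ℚ L]
  [FiniteDimensional ℚ L'] [Normal ℚ L'] (hLL : L ≤ L') (a : Aux n) (hFL : a.fixedChi ≤ L')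
  (q : Nat.Primes)

/-- The character on `Gal(L'/ℚ)`. -/
def chiGlob : (L' ≃ₐ[ℚ] L') →* Multiplicative (ZMod n) :=
  a.galEquiv.toMonoidHom.comp (resTo hFL)

theorem chiGlob_res (g : GQ) : chiGlob a hFL (res L' g) = a.chi g := by
  show a.galEquiv (resTo hFL (res L' g)) = a.chi g
  rw [resTo_res, a.galEquiv_res]

/-- The character on the local Galois group. -/
def chiLoc : (E L' q ≃ₐ[ℚ_[(q : ℕ)]] E L' q) →* Multiplicative (ZMod n) :=
  (chiGlob a hFL).comp (toGlobal (q : ℕ) L')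

theorem eq_one_of_resTo {σ : L' ≃ₐ[ℚ] L'} (hsup : L' = L ⊔ a.fixedChi) (h1 : resTo hLL σ = 1)
    (h2 : chiGlob a hFL σ = 1) : σ = 1 := by
  obtain ⟨g, rfl⟩ := AlgEquiv.restrictNormalHom_surjective (K₁ := L') QBar σ
  rw [resTo_res, res_eq_one_iff] at h1
  have h2' : g ∈ a.fixedChi.fixingSubgroup := by
    rw [a.fixingSubgroup_fixedChi, MonoidHom.mem_ker, ← chiGlob_res a hFL]
    exact h2
  show res L' g = 1
  rw [res_eq_one_iff]
  have h3 : g ∈ (L ⊔ a.fixedChi).fixingSubgroup := by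
    rw [IntermediateField.fixingSubgroup_sup]; exact ⟨h1, h2'⟩
  rwa [← hsup] at h3

theorem ker_inf_eq_bot (hsup : L' = L ⊔ a.fixedChi) :
    (localRes hLL q).ker ⊓ (chiLoc a hFL q).ker = ⊥ := by
  refine eq_bot_iff.2 fun σ hσ => ?_
  rw [Subgroup.mem_bot]
  refine toGlobal_injective (q : ℕ) L' ?_
  rw [map_one]
  refine eq_one_of_resTo hLL a hFL hsup ?_ hσ.2
  rw [resTo_toGlobal, MonoidHom.mem_ker.1 hσ.1, map_one]

variable {q}

theorem inertia_le_ker_chiLoc (hq : q ≠ a.q) : inertia (E L' q) ≤ (chiLoc a hFL q).ker := by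
  intro σ hσ
  obtain ⟨g, hg, e⟩ := exists_inertia_of_mem_inertia (q : ℕ) L' hσ
  show chiGlob a hFL (toGlobal (q : ℕ) L' σ) = 1
  rw [← e]
  exact (chiGlob_res a hFL g).trans (a.chi_inertia hq (padicPlace_liesOverPrime (q : ℕ)) hg)

theorem exists_chiLoc_eq_one (hq : q ≠ a.q)
    (hlog : a.log (a.unitOf (a.not_dvd_of_ne hq)) = Multiplicative.ofAdd 1) :
    ∃ σ, chiLoc a hFL q σ = Multiplicative.ofAdd 1 := by
  obtain ⟨fr, hfr⟩ := exists_isFrobeniusAt (padicPlace_liesOverPrime (q : ℕ)) q.2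
  have hc : res L' fr ∈ (toGlobal (q : ℕ) L').range :=
    (mem_range_toGlobal_iff (q : ℕ) L' _).2 fun x hx => by
      rw [res_apply]
      exact map_mem_of_mem_decomposition (isFrobeniusAt_iff_forall_mem.1 hfr).1 hx
  obtain ⟨t, ht⟩ := hc
  exact ⟨t, (congrArg (chiGlob a hFL) ht).trans ((chiGlob_res a hFL fr).trans
    ((a.chi_frob hq (padicPlace_liesOverPrime (q : ℕ)) hfr).trans hlog))⟩

variable (L') in
/-- The prime `q` as a unit of the completion. -/
def qUnit (q : Nat.Primes) : Additive (E L' q)ˣ :=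
  Additive.ofMul (Units.mk0 ((q : ℕ) : E L' q) (Nat.cast_ne_zero.2 q.2.ne_zero))

theorem smul_qUnit (σ : E L' q ≃ₐ[ℚ_[(q : ℕ)]] E L' q) : σ • qUnit L' q = qUnit L' q :=
  Additive.toMul.injective (Units.ext (map_natCast σ (q : ℕ)))

/-- The local class and its relation to the carry cocycle of `q`. -/
theorem exists_localClass (hsup : L' = L ⊔ a.fixedChi) (hq : q ≠ a.q)
    (hn : n ∣ Nat.card (E L q ≃ₐ[ℚ_[(q : ℕ)]] E L q)) :
    ∃ (u : NormCocycle (E L q ≃ₐ[ℚ_[(q : ℕ)]] E L q) (Additive (E L q)ˣ))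
      (b : (E L' q ≃ₐ[ℚ_[(q : ℕ)]] E L' q) → Additive (E L' q)ˣ),
      ∀ s t, inclU hLL q (u.toFun (localRes hLL q s, localRes hLL q t)) =
        carryN (chiLoc a hFL q) (qUnit L' q) (s, t) - dOne b (s, t) := by
  classical
  let π := localRes hLL q
  set χ := chiLoc a hFL q
  set m := Nat.card (E L q ≃ₐ[ℚ_[(q : ℕ)]] E L q)
  haveI : Fintype π.ker := Fintype.ofFinite _
  have hpow : ∀ g ∈ (⊤ : Subgroup (E L' q ≃ₐ[ℚ_[(q : ℕ)]] E L' q)), g ^ m ∈ π.ker := fun g _ => by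
    rw [MonoidHom.mem_ker, map_pow]; exact pow_card_eq_one'
  have hpow' : ∀ g ∈ (⊤ : Subgroup (E L' q ≃ₐ[ℚ_[(q : ℕ)]] E L' q)), g ^ m ∈ χ.ker := fun g _ => by
    rw [MonoidHom.mem_ker, map_pow]
    obtain ⟨d, hd⟩ := hn
    have hexp : ∀ x : Multiplicative (ZMod n), x ^ n = 1 := fun x => by
      rw [← ofAdd_toAdd x, ← ofAdd_nsmul, nsmul_eq_mul, ZMod.natCast_self, zero_mul]; rfl
    rw [show m = n * d from hd, pow_mul, hexp, one_pow]
  have hcard : Nat.card (⊤ : Subgroup (E L' q ≃ₐ[ℚ_[(q : ℕ)]] E L' q)) = Nat.card π.ker * m := by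
    rw [Subgroup.card_top, ← π.ker.card_mul_index, Subgroup.index_ker,
      MonoidHom.range_eq_top.2 (localRes_surjective hLL q), Subgroup.card_top]
  obtain ⟨w, hw⟩ := exists_normHom_eq_of_base_change ⊤ π.ker χ.ker le_top hpow hpow'
    (ker_inf_eq_bot hLL a hFL q hsup) (inf_le_right.trans (inertia_le_ker_chiLoc a hFL hq)) hcard
    (x := (qUnit L' q).toMul) fun h => Units.ext (map_natCast (h : E L' q ≃ₐ[ℚ_[(q : ℕ)]] E L' q) (q : ℕ))
  have hnorm : normSum π.ker (Additive (E L' q)ˣ) (Additive.ofMul w) = qUnit L' q := by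
    apply Additive.toMul.injective
    rw [normSum, toMul_sum, ← hw]
    rfl
  have hcoc : IsCocycle₂ (carryN χ (qUnit L' q)) := isCocycle₂_carryN fun σ => smul_qUnit σ
  have hres : IsCoboundary₂ fun x : π.ker × π.ker =>
      carryN χ (qUnit L' q) ((x.1 : E L' q ≃ₐ[ℚ_[(q : ℕ)]] E L' q), (x.2 : E L' q ≃ₐ[_] E L' q)) := by
    have h := isCoboundary₂_carryN_normSum (χ.comp π.ker.subtype) (Additive.ofMul w)
    rw [hnorm] at h
    exact h
  obtain ⟨c₀, hc₀, hb⟩ := exists_descend₂ π (localRes_surjective hLL q) (inclU hLL q)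
    (inclU_injective hLL q) (fun g x => smul_inclU hLL q g x) (fun x hx => exists_inclU_eq hLL q hx)
    (h1Zero_units π.ker) _ hcoc hres
  obtain ⟨b, hb⟩ := hb
  set z := c₀ (1, 1)
  refine ⟨⟨c₀ - dOne fun _ => z, isCocycle₂_sub hc₀ (isCocycle₂_dOne _), fun g => ?_⟩,
    fun g => b g + inclU hLL q z, fun s t => ?_⟩
  · simp [dOne, z, map_one_fst_of_isCocycle₂ hc₀]
  · have e := hb s t
    simp only [π, Pi.sub_apply] at e
    simp only [π, Pi.sub_apply, dOne, map_sub, map_add, smul_add, ← smul_inclU hLL q]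
    rw [eq_sub_iff_add_eq] at e
    rw [← e]
    abel

end Fermat.Agent.CFT.Form
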