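import Fermat.Agent.CFT.Form.LocalPsi
import Fermat.Agent.CFT.Idele.SecondIneq

/-!
# The order of the local class among the idele classes

If a multiple of the local class is a coboundary among idele classes on a `p`-group `P` of index
prime to `p`, the multiple is divisible by `n`.
-/

set_option autoImplicit false
set_option synthInstance.maxHeartbeats 200000
set_option linter.unusedSectionVars false
set_option linter.style.haveILetI false

noncomputable section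

namespace Fermat.Agent.CFT.Form

open ExtCitation Fermat.Agent.Arith IntermediateField Fermat.Agent.CFT.Local Fermat.Agent.CFT.Idele
open Fermat.Agent.CFT.Duality groupCohomology

local instance factPrimeLocalOrder (q : Nat.Primes) : Fact (q : ℕ).Prime := ⟨q.2⟩

section General

variable {G A : Type*} [Group G] [Finite G] [AddCommGroup A] [DistribMulAction G A]

theorem sumQ_subgroupOf {K H : Subgroup G} (hKH : K ≤ H) {w : A} (hw : ∀ k ∈ K, k • w = w) :
    sumQ K w = sumQ H (sumQ (K.subgroupOf H) w) := by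
  letI := Fintype.ofFinite (H ⧸ K.subgroupOf H)
  show _ = sumQ H (∑ c : H ⧸ K.subgroupOf H, ((c.out : H) : G) • w)
  refine sumQ_tower hKH hw (fun c : H ⧸ K.subgroupOf H => ((c.out : H) : G)) (fun c => c.out.2)
    (fun c d hcd => ?_) fun h hh => ?_
  · rw [← QuotientGroup.out_eq' c, ← QuotientGroup.out_eq' d]
    exact QuotientGroup.eq.2 hcd
  · exact ⟨QuotientGroup.mk ⟨h, hh⟩, Subgroup.mem_subgroupOf.1
      (QuotientGroup.eq.1 (QuotientGroup.out_eq' (QuotientGroup.mk ⟨h, hh⟩)))⟩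

theorem sumQ_cyclic {H : Subgroup G} {n : ℕ} [NeZero n] (χ : H →* Multiplicative (ZMod n)) {γ : H}
    (hγ : χ γ = Multiplicative.ofAdd 1) {w : A} (hw : ∀ k ∈ χ.ker, k • w = w) :
    sumQ (χ.ker.map H.subtype) w = sumQ H (∑ i ∈ Finset.range n, γ ^ i • w) := by
  rw [← Fin.sum_univ_eq_sum_range (fun i => γ ^ i • w)]
  refine sumQ_tower (Subgroup.map_subtype_le _) (by rintro _ ⟨g, hg, rfl⟩; exact hw g hg)
    (fun i : Fin n => ((γ ^ (i : ℕ) : H) : G)) (fun i => (γ ^ (i : ℕ)).2) (fun i j hij => ?_)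
    fun h hh => ?_
  · obtain ⟨g, hg, e⟩ := hij
    obtain rfl : g = (γ ^ (i : ℕ))⁻¹ * γ ^ (j : ℕ) := Subtype.ext e
    rw [SetLike.mem_coe, MonoidHom.mem_ker, map_mul, map_inv, inv_mul_eq_one] at hg
    refine Fin.ext ?_
    rw [← chiVal_pow hγ i.2, ← chiVal_pow hγ j.2, chiVal, chiVal, hg]
  · exact ⟨⟨chiVal χ ⟨h, hh⟩, chiVal_lt χ _⟩,
      ⟨_, inv_pow_chiVal_mul_mem_ker hγ ⟨h, hh⟩, rfl⟩⟩

end General

variable {p n : ℕ} [Fact p.Prime] [NeZero n] {L L' : IntermediateField ℚ QBar}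
  [FiniteDimensional ℚ L] [Normal ℚ L]
  [FiniteDimensional ℚ L'] [Normal ℚ L'] (hLL : L ≤ L') (a : Aux n) (hFL : a.fixedChi ≤ L')
  {q : Nat.Primes} (P : Subgroup (E L q ≃ₐ[ℚ_[(q : ℕ)]] E L q))

theorem ker_chiGlob : (chiGlob a hFL).ker = (Idele.resTo hFL).ker := by
  ext σ
  show a.galEquiv (Idele.resTo hFL σ) = 1 ↔ Idele.resTo hFL σ = 1
  rw [map_eq_one_iff _ a.galEquiv.injective]

include hFL in
theorem isPGroup_upSub (hsup : L' = L ⊔ a.fixedChi) (hP : IsPGroup p P)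
    (hZ : IsPGroup p (Multiplicative (ZMod n))) : IsPGroup p (upSub hLL q P) := fun g => by
  obtain ⟨i, hi⟩ := (hP.map (toGlobal (q : ℕ) L)) ⟨Idele.resTo hLL g.1, g.2⟩
  obtain ⟨j, hj⟩ := hZ (chiGlob a hFL ((g : L' ≃ₐ[ℚ] L') ^ p ^ i))
  refine ⟨i + j, Subtype.ext (eq_one_of_resTo hLL a hFL hsup ?_ ?_)⟩
  · rw [SubgroupClass.coe_pow, map_pow, pow_add, pow_mul]
    rw [show Idele.resTo hLL g.1 ^ p ^ i = 1 from congrArg Subtype.val hi, one_pow]
  · rw [SubgroupClass.coe_pow, pow_add, pow_mul, map_pow]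
    exact hj

theorem exists_gen_upSub (hq : q ≠ a.q)
    (hlog : a.log (a.unitOf (a.not_dvd_of_ne hq)) = Multiplicative.ofAdd 1)
    (hcop : n.Coprime P.index) :
    ∃ γ : upSub hLL q P,
      ((chiGlob a hFL).comp (upSub hLL q P).subtype) γ = Multiplicative.ofAdd 1 := by
  obtain ⟨s₀, hs₀⟩ := exists_chiLoc_eq_one a hFL hq hlog
  have hsurj : Function.Surjective (chiLoc a hFL q) := fun c =>
    ⟨s₀ ^ (Multiplicative.toAdd c).val, by
      rw [map_pow, hs₀, ← ofAdd_nsmul, nsmul_one, ZMod.natCast_zmod_val, ofAdd_toAdd]⟩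
  set I := ((upSub hLL q P).comap (toGlobal (q : ℕ) L')).map (chiLoc a hFL q)
  have h1 : I.index ∣ P.index := by
    rw [← P.index_comap_of_surjective (localRes_surjective hLL q), ← upSub_comap hLL q P]
    exact Subgroup.index_map_dvd _ hsurj
  have h2 : I.index ∣ n := by
    have := I.index_dvd_card
    rwa [Nat.card_congr Multiplicative.toAdd, Nat.card_zmod] at this
  have hI : I = ⊤ := Subgroup.index_eq_one.1 (Nat.eq_one_of_dvd_coprimes hcop h2 h1)
  obtain ⟨s, hs, e⟩ := Subgroup.mem_map.1 (hI.ge (Subgroup.mem_top (Multiplicative.ofAdd 1)))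
  exact ⟨⟨_, hs⟩, e⟩

theorem inclC_norm (W : C a.fixedChi) :
    sumQ (chiGlob a hFL).ker (Idele.inclC hFL W) =
      Idele.inclC hFL (∑ σ : a.fixedChi ≃ₐ[ℚ] a.fixedChi, σ • W) := by
  letI := Fintype.ofFinite ((L' ≃ₐ[ℚ] L') ⧸ (chiGlob a hFL).ker)
  rw [sumQ, map_sum]
  have key : ∀ σ τ : L' ≃ₐ[ℚ] L', Idele.resTo hFL σ = Idele.resTo hFL τ ↔
      (QuotientGroup.mk σ : (L' ≃ₐ[ℚ] L') ⧸ (chiGlob a hFL).ker) = QuotientGroup.mk τ := fun σ τ => by
    rw [QuotientGroup.eq, ker_chiGlob, MonoidHom.mem_ker, map_mul, map_inv, inv_mul_eq_one]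
  have hbij : Function.Bijective
      (fun c : (L' ≃ₐ[ℚ] L') ⧸ (chiGlob a hFL).ker => Idele.resTo hFL c.out) := by
    refine ⟨fun c d h => ?_, fun σ => ?_⟩
    · rw [← QuotientGroup.out_eq' c, ← QuotientGroup.out_eq' d]
      exact (key _ _).1 h
    · obtain ⟨τ, rfl⟩ := Idele.resTo_surjective hFL σ
      exact ⟨QuotientGroup.mk τ, (key _ _).2 (QuotientGroup.out_eq' _)⟩
  rw [← hbij.sum_comp (fun σ => Idele.inclC hFL (σ • W))]
  exact Finset.sum_congr rfl fun c _ => Idele.inclC_smul hFL c.out W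

set_option maxHeartbeats 1600000 in
/-- A coboundary multiple of the local class is divisible by `n`. -/
theorem local_dvd_of_coboundary (hp2 : p ≠ 2) {ζ : L'} (hζ : IsPrimitiveRoot ζ p)
    (hsup : L' = L ⊔ a.fixedChi) (hq : q ≠ a.q)
    (hlog : a.log (a.unitOf (a.not_dvd_of_ne hq)) = Multiplicative.ofAdd 1)
    (hn1 : 1 < n) (hodd : Odd n) (hZ : IsPGroup p (Multiplicative (ZMod n)))
    (hP : IsPGroup p P) (hcop : n.Coprime P.index)
    (u : NormCocycle (E L q ≃ₐ[ℚ_[(q : ℕ)]] E L q) (Additive (E L q)ˣ))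
    (b : (E L' q ≃ₐ[ℚ_[(q : ℕ)]] E L' q) → Additive (E L' q)ˣ)
    (hu : ∀ s t, inclU hLL q (u.toFun (localRes hLL q s, localRes hLL q t)) =
        carryN (chiLoc a hFL q) (qUnit L' q) (s, t) - dOne b (s, t))
    (k : ℤ) (β : P → C L)
    (hβ : ∀ g h : P, toGlobal (q : ℕ) L (g : E L q ≃ₐ[ℚ_[(q : ℕ)]] E L q) • β h - β (g * h) + β g =
      k • proj L (loc' L q (u.toFun ((g : E L q ≃ₐ[ℚ_[(q : ℕ)]] E L q), (h : E L q ≃ₐ[_] E L q))))) :
    (n : ℤ) ∣ k := by
  set Pu := upSub hLL q P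
  set χ := (chiGlob a hFL).comp Pu.subtype
  obtain ⟨γ, hγ⟩ := exists_gen_upSub hLL a hFL P hq hlog hcop
  set K := χ.ker.map Pu.subtype
  have hK : IsPGroup p K := ((isPGroup_upSub hLL a hFL P hsup hP hZ).to_subgroup χ.ker).map Pu.subtype
  have h1 : H1Zero χ.ker (C L') :=
    ((Idele.stepAxioms L' hp2 hζ).h1Zero K hK).of_equiv
      (χ.ker.equivMapOfInjective Pu.subtype Pu.subtype_injective) fun _ _ => rfl
  obtain ⟨w, hw, hx⟩ := exists_eq_norm_of_carryN hn1 hγ h1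
    (isCoboundary_carry_qIdele hLL a hFL q P u b hu k β hβ)
  have hwK : ∀ g ∈ K, g • w = w := by rintro _ ⟨g, hg, rfl⟩; exact hw g hg
  set x := k • qIdele hLL q P
  have hxP : ∀ g ∈ Pu, g • x = x := fun g hg =>
    (smul_comm g k _).trans (congrArg (k • ·) (smul_qIdele hLL q P ⟨g, hg⟩))
  set Kg := (chiGlob a hFL).ker
  have e1 : sumQ K w = sumQ Pu (proj L' x) := by rw [hx]; exact sumQ_cyclic χ hγ hw
  have hKg : K ≤ Kg := by rintro _ ⟨g, hg, rfl⟩; exact hg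
  have e2 := sumQ_subgroupOf hKg hwK
  obtain ⟨W, hW⟩ := Idele.exists_inclC_eq hFL (x := sumQ (K.subgroupOf Kg) w) fun g hg => by
    rw [← ker_chiGlob a hFL] at hg
    exact smul_sumQ (G := Kg) (fun g hg => hwK (g : L' ≃ₐ[ℚ] L') hg) ⟨g, hg⟩
  have hN : ∀ σ : L' ≃ₐ[ℚ] L', σ • sumQ Pu x = sumQ Pu x := smul_sumQ hxP
  have hproj : proj L' (sumQ Pu x) =
      Idele.inclC hFL (∑ σ : a.fixedChi ≃ₐ[ℚ] a.fixedChi, σ • W) := by
    rw [← inclC_norm, hW, ← e2, e1, sumQ, sumQ, map_sum]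
    exact Finset.sum_congr rfl fun c _ => proj_smul L' _ _
  have h := dvd_mul_index hLL a P hq hlog k hN (psi_eq_one_of_class a hFL hodd _ hN W hproj)
  exact Int.dvd_of_dvd_mul_left_of_gcd_one h (by exact_mod_cast hcop)

end Fermat.Agent.CFT.Form
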