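import Fermat.Agent.CFT.Idele.Step
import Fermat.Agent.CFT.Idele.Bridge
import Fermat.Agent.CFT.Coh.H2
import Fermat.Agent.CFT.Local.Units
import Fermat.Agent.CFT.Local.NormIndex

/-!
# The class field axioms for steps of index `p` in a local Galois group

For `E/ℚ_[q]` finite normal the units satisfy `StepAxioms`: Hilbert 90 gives `h1`, and the
Herbrand quotient of the invariant units together with the valuation gives `index_le`.
-/

set_option autoImplicit false
set_option synthInstance.maxHeartbeats 200000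
set_option linter.style.haveILetI false

noncomputable section

namespace Fermat.Agent.CFT.Form

open groupCohomology Fermat.Agent.CFT.Local Fermat.Agent.CFT.Idele

/-- Hilbert 90 for a step, from the vanishing of the first cohomology of the larger group. -/
theorem exists_smul_sub_eq_of_stepNorm {G A : Type*} [Group G] [Finite G] [AddCommGroup A]
    [DistribMulAction G A] {p : ℕ} [hp : Fact p.Prime] {H K : Subgroup G} {g : G}
    (hs : CFT.IsStep p H K g) (h1 : H1Zero H A) {a : A} (ha : ∀ k ∈ K, k • a = a)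
    (hN : CFT.stepNorm p g a = 0) : ∃ b : A, (∀ k ∈ K, k • b = b) ∧ g • b - b = a := by
  obtain ⟨χ, -, hker, hg⟩ := hs.exists_char
  set γ : H := ⟨g, hs.mem⟩ with hγ
  let i : H → ℕ := fun x => (Multiplicative.toAdd (χ x)).val
  let P : ℕ → A := fun m => ∑ j ∈ Finset.range m, g ^ j • a
  have hi_lt : ∀ x, i x < p := fun x => ZMod.val_lt _
  have hi_mul : ∀ x y, i (x * y) = (i x + i y) % p := fun x y => by
    simp only [i, map_mul, toAdd_mul, ZMod.val_add]
  have hP : ∀ m m', P (m + m') = P m + g ^ m • P m' := fun m m' => by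
    simp only [P, Finset.sum_range_add, Finset.smul_sum, smul_smul, ← pow_add]
  have hPp : P p = 0 := hN
  have hwn : ∀ m, g ^ (p + m) • a = g ^ m • a := fun m => by
    rw [add_comm, pow_add, mul_smul, ha _ hs.pow_mem]
  have hact : ∀ (x : H) (j : ℕ), x • (g ^ j • a) = g ^ (i x) • g ^ j • a := fun x j => by
    have hr : (γ ^ j)⁻¹ * ((γ ^ i x)⁻¹ * x) * γ ^ j ∈ χ.ker := by
      have h0 : (γ ^ i x)⁻¹ * x ∈ χ.ker := by
        rw [MonoidHom.mem_ker, map_mul, map_inv, map_pow, hg, ← ofAdd_nsmul, nsmul_one,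
          ZMod.natCast_zmod_val, ofAdd_toAdd, inv_mul_cancel]
      simpa using (inferInstance : χ.ker.Normal).conj_mem _ h0 (γ ^ j)⁻¹
    rw [hker, Subgroup.mem_subgroupOf] at hr
    conv_rhs => rw [← ha _ hr]
    simp only [smul_smul, Subgroup.smul_def]
    congr 1
    simp [mul_assoc, γ]
  have hc : IsCocycle₁ fun x : H => P (i x) := fun x y => by
    show P (i (x * y)) = x • P (i y) + P (i x)
    have e : x • P (i y) = g ^ i x • P (i y) := by
      simp only [P, Finset.smul_sum, hact]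
    rw [e, hi_mul]
    have h2 := hP (i x) (i y)
    rcases Nat.lt_or_ge (i x + i y) p with hlt | hge
    · rw [Nat.mod_eq_of_lt hlt, h2, add_comm]
    · have hlt : i x + i y - p < p := by have := hi_lt x; have := hi_lt y; omega
      rw [Nat.mod_eq_sub_mod hge, Nat.mod_eq_of_lt hlt]
      have h3 := hP p (i x + i y - p)
      rw [show p + (i x + i y - p) = i x + i y by omega, h2, hPp, zero_add] at h3
      rw [add_comm (g ^ i x • P (i y)), h3]
      simp only [P, Finset.smul_sum, smul_smul, ← pow_add, hwn]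
  obtain ⟨b, hb⟩ := h1 _ hc
  refine ⟨b, fun k hk => ?_, ?_⟩
  · have h0 : i ⟨k, hs.le hk⟩ = 0 := by
      have : (⟨k, hs.le hk⟩ : H) ∈ χ.ker := by rw [hker, Subgroup.mem_subgroupOf]; exact hk
      simp [i, MonoidHom.mem_ker.mp this]
    have e : k • b - b = P (i ⟨k, hs.le hk⟩) := hb ⟨k, hs.le hk⟩
    rw [h0] at e
    simpa [P, sub_eq_zero] using e
  · have h0 : i γ = 1 := by
      simp only [i, hg, toAdd_ofAdd]
      exact ZMod.val_one p
    have e : g • b - b = P (i γ) := hb γ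
    rw [h0] at e
    simpa [P] using e

variable {q : ℕ} [Fact q.Prime] {E : IntermediateField ℚ_[q] (PadicAlgCl q)}
  [FiniteDimensional ℚ_[q] E] [Normal ℚ_[q] E] {p : ℕ} [hp : Fact p.Prime]
  {H K : Subgroup (E ≃ₐ[ℚ_[q]] E)} {g : E ≃ₐ[ℚ_[q]] E}

omit [Normal ℚ_[q] E] in
theorem step_of_isStep' (hs : CFT.IsStep p H K g) : Step p H K g :=
  Step.of_isPGroup hs.le hs.mem hs.notMem hs.isPGroup hs.relIndex

omit [FiniteDimensional ℚ_[q] E] [Normal ℚ_[q] E] hp in
theorem toMul_sum_range (s : Finset ℕ) (f : ℕ → Additive Eˣ) :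
    (∑ i ∈ s, f i).toMul = ∏ i ∈ s, (f i).toMul := toMul_sum _ _

/-- The invariant units modulo norms of the step have at most `p` classes. -/
theorem ind0_step_le (hs : CFT.IsStep p H K g) :
    ind0 (dStep Eˣ (step_of_isStep' hs)) (nStep Eˣ (step_of_isStep' hs)) ≤ p ∧
      ind0 (dStep Eˣ (step_of_isStep' hs)) (nStep Eˣ (step_of_isStep' hs)) ≠ 0 := by
  classical
  haveI : Fintype H := Fintype.ofFinite H
  haveI : Fintype K := Fintype.ofFinite K
  set st := step_of_isStep' hs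
  set A := fixedBy K Eˣ
  set d := dStep Eˣ st
  set N := nStep Eˣ st
  obtain ⟨Λ⟩ := exists_normalLattice (E := E)
  have hD : ∀ σ : E ≃ₐ[ℚ_[q]] E, ∀ x ∈ deepUnits Λ.good 0, σ • x ∈ deepUnits Λ.good 0 :=
    fun σ x hx => Λ.smul_mem_deepUnits hx
  have hok : ∀ (S : Subgroup (E ≃ₐ[ℚ_[q]] E)) [Fintype S], NormOK S (deepUnits Λ.good 0) :=
    fun S _ => ⟨fun x hx hfix => Λ.exists_normHom_eq S hx hfix,
      fun x hx hN => Λ.exists_augHom_eq S hx hN⟩
  obtain ⟨t0, t1⟩ := ind0Sub_of_normOK st hD (hok H) (hok K)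
  set U := subFixed K (unitGroup E)
  have hU' : ∀ σ : E ≃ₐ[ℚ_[q]] E, ∀ x ∈ unitGroup E, σ • x ∈ unitGroup E :=
    fun σ x hx => (smul_mem_unitGroup_iff σ x).2 hx
  have hUd : U.map d ≤ U := map_dStep_le st hU'
  have hUN : U.map N ≤ U := map_nStep_le st hU'
  have hidx : (subFixed K (deepUnits Λ.good 0)).relIndex U ≠ 0 := by
    show ((deepUnits Λ.good 0).comap A.subtype).relIndex _ ≠ 0
    rw [Subgroup.relIndex_comap]
    exact fun h => relIndex_deepUnits_ne_zero Λ.good 0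
      (Subgroup.relIndex_eq_zero_of_le_right (by rintro _ ⟨x, hx, rfl⟩; exact hx) h)
  obtain ⟨hU1, hU0⟩ := ind0Sub_eq_of_triv d N hUd hUN (dStep_nStep st) (nStep_dStep st)
    (B := subFixed K (deepUnits Λ.good 0)) (fun x hx => deepUnits_le_unitGroup Λ.good hx)
    (map_dStep_le st hD) (map_nStep_le st hD) hidx t0 t1
  -- the kernel of the norm
  have hone : ind0 N d = 1 := by
    rw [ind0, Subgroup.relIndex_eq_one]
    intro x hx
    obtain ⟨b, hbK, hb⟩ := exists_smul_sub_eq_of_stepNorm hs (h1Zero_units H)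
      (a := Additive.ofMul (x : Eˣ)) (fun k hk => congrArg Additive.ofMul (x.2 k hk)) (by
        apply Additive.toMul.injective
        rw [CFT.stepNorm, toMul_sum_range]
        exact congrArg Subtype.val (MonoidHom.mem_ker.1 hx))
    exact ⟨⟨b.toMul, fun k hk => congrArg Additive.toMul (hbK k hk)⟩,
      Subtype.ext (congrArg Additive.toMul hb)⟩
  -- the quotient by the units
  set f : A →* Multiplicative ℤ := (ord E).comp A.subtype
  have hfU : ∀ x : A, f x = 1 ↔ x ∈ U := fun x => ord_eq_one_iff E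
  haveI : IsCyclic f.range := inferInstance
  obtain ⟨⟨t, a, rfl⟩, ha⟩ := IsCyclic.exists_generator (α := f.range)
  have hcomap : U.comap d = ⊤ := (Subgroup.eq_top_iff' _).2 fun x => (hfU _).1 (by
    show ord E (g • (x : Eˣ) / x) = 1
    rw [map_div, ord_smul_unit, div_self'])
  set S := N.range ⊔ U
  have hap : a ^ p ∈ S := by
    have hmem : a ^ p / N a ∈ U := (hfU _).1 (by
      rw [map_div, map_pow, div_eq_one]
      show ord E (a : Eˣ) ^ p = ord E (N a : Eˣ)
      rw [nStep_coe, map_prod]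
      simp only [ord_smul_unit, Finset.prod_const, Finset.card_range])
    rw [← div_mul_cancel (a ^ p) (N a), mul_comm]
    exact Subgroup.mul_mem_sup ⟨a, rfl⟩ hmem
  have hsurj : Function.Surjective (fun i : Fin p => (QuotientGroup.mk (a ^ (i : ℕ)) : A ⧸ S)) := by
    intro y
    obtain ⟨x, rfl⟩ := QuotientGroup.mk_surjective y
    obtain ⟨m, hm⟩ := ha ⟨f x, x, rfl⟩
    have hm' : f a ^ m = f x := congrArg Subtype.val hm
    have hp0 : (p : ℤ) ≠ 0 := by exact_mod_cast hp.out.ne_zero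
    refine ⟨⟨(m % p).toNat, by
      have := Int.emod_lt_of_pos m (b := (p : ℤ)) (by have := hp.out.pos; omega)
      have := Int.emod_nonneg m hp0
      omega⟩, QuotientGroup.eq.2 ?_⟩
    show (a ^ (m % p).toNat)⁻¹ * x ∈ S
    have e : (a ^ (m % p).toNat)⁻¹ * x = (a ^ p) ^ (m / p) * ((a ^ m)⁻¹ * x) := by
      rw [← mul_assoc, ← zpow_natCast a (m % p).toNat,
        Int.toNat_of_nonneg (Int.emod_nonneg m hp0), ← zpow_neg, ← zpow_neg, ← zpow_natCast a p,
        ← zpow_mul, ← zpow_add]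
      congr 2
      rw [Int.emod_def]; ring
    rw [e]
    refine mul_mem (zpow_mem hap _) (Subgroup.mem_sup_right ((hfU _).1 ?_))
    rw [map_mul, map_inv, map_zpow, hm', inv_mul_cancel]
  haveI : Finite (A ⧸ S) := Finite.of_surjective _ hsurj
  have hQ : ind0Quot d N U ≤ p ∧ ind0Quot d N U ≠ 0 := by
    rw [ind0Quot, hcomap, Subgroup.relIndex_top_right]
    exact ⟨(Nat.card_le_card_of_surjective _ hsurj).trans_eq (Nat.card_fin p),
      Subgroup.index_ne_zero_of_finite⟩
  have h := herbrand_mul d N (dStep_nStep st) (nStep_dStep st) U hUd hUN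
  rw [hU1, hone, mul_one, mul_right_comm] at h
  have h' : ind0Quot d N U = ind0Quot N d U * ind0 d N := mul_right_cancel₀ hU0 h
  refine ⟨(Nat.le_of_dvd (Nat.pos_of_ne_zero hQ.2) ⟨_, h'.trans (mul_comm _ _)⟩).trans hQ.1, ?_⟩
  exact fun h0 => hQ.2 (by rw [h', h0, mul_zero])

/-- The class field axioms of the units of a local field. -/
theorem localStepAxioms : CFT.StepAxioms p (E ≃ₐ[ℚ_[q]] E) (Additive Eˣ) := by
  refine ⟨fun H K g hs a ha hN => exists_smul_sub_eq_of_stepNorm hs (h1Zero_units H) ha hN,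
    fun H K g hs => ?_⟩
  set st := step_of_isStep' hs
  set d := dStep Eˣ st
  set N := nStep Eˣ st
  obtain ⟨hle, hne⟩ := ind0_step_le hs
  set R : Subgroup d.ker := N.range.subgroupOf d.ker
  haveI : Finite (d.ker ⧸ R) := Nat.finite_of_card_ne_zero hne
  have hfix : ∀ x : Eˣ, x ∈ fixedBy H Eˣ → ∃ x' : d.ker, ((x' : fixedBy K Eˣ) : Eˣ) = x :=
    fun x hx => ⟨⟨⟨x, fixedBy_anti st.le hx⟩, (mem_ker_dStep st).2 (hx g st.mem)⟩, rfl⟩
  have hkill : ∀ y : d.ker ⧸ R, y ^ p = 1 := fun y => by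
    obtain ⟨x, rfl⟩ := QuotientGroup.mk_surjective y
    rw [← QuotientGroup.mk_pow, QuotientGroup.eq_one_iff, Subgroup.mem_subgroupOf]
    refine ⟨(x : fixedBy K Eˣ), Subtype.ext ?_⟩
    rw [nStep_coe]
    have hg : g • ((x : fixedBy K Eˣ) : Eˣ) = (x : fixedBy K Eˣ) := (mem_ker_dStep st).1 x.2
    have hgi : ∀ i : ℕ, g ^ i • ((x : fixedBy K Eˣ) : Eˣ) = (x : fixedBy K Eˣ) := fun i =>
      (MulAction.stabilizer (E ≃ₐ[ℚ_[q]] E) ((x : fixedBy K Eˣ) : Eˣ)).pow_mem hg i
    simp [hgi]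
  obtain ⟨x₀, hgen⟩ : ∃ x₀ : d.ker, ∀ y : d.ker ⧸ R, y ∈ Subgroup.zpowers (QuotientGroup.mk x₀) := by
    rcases subsingleton_or_nontrivial (d.ker ⧸ R) with h | h
    · exact ⟨1, fun y => Subsingleton.elim (1 : d.ker ⧸ R) y ▸ one_mem _⟩
    obtain ⟨y₀, hy₀⟩ := exists_ne (1 : d.ker ⧸ R)
    obtain ⟨x₀, rfl⟩ := QuotientGroup.mk_surjective y₀
    have ho : orderOf (QuotientGroup.mk x₀ : d.ker ⧸ R) = p :=
      orderOf_eq_prime (hkill _) hy₀
    refine ⟨x₀, fun y => ?_⟩
    have htop := Subgroup.eq_top_of_le_card (Subgroup.zpowers (QuotientGroup.mk x₀ : d.ker ⧸ R))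
      (by rw [Nat.card_zpowers, ho]; exact hle)
    rw [htop]; exact Subgroup.mem_top y
  refine ⟨Additive.ofMul ((x₀ : fixedBy K Eˣ) : Eˣ), fun h hh => congrArg Additive.ofMul
    ((st.mem_fixedBy_iff.2 ⟨(x₀ : fixedBy K Eˣ).2, (mem_ker_dStep st).1 x₀.2⟩) h hh),
    fun x hx => ?_⟩
  obtain ⟨x', hx'⟩ := hfix x.toMul fun h hh => congrArg Additive.toMul (hx h hh)
  obtain ⟨m, hm⟩ := hgen (QuotientGroup.mk x')
  have hmem := QuotientGroup.eq.1 ((QuotientGroup.mk_zpow R x₀ m).trans hm)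
  rw [Subgroup.mem_subgroupOf] at hmem
  obtain ⟨b, hb⟩ := hmem
  refine ⟨m, Additive.ofMul (b : Eˣ), fun k hk => congrArg Additive.ofMul (b.2 k hk),
    Additive.toMul.injective ?_⟩
  have e := congrArg (fun z : fixedBy K Eˣ => (z : Eˣ)) hb
  simp only [N, nStep_coe, Subgroup.coe_mul, InvMemClass.coe_inv, SubgroupClass.coe_zpow] at e
  rw [toMul_add, toMul_zsmul, CFT.stepNorm, toMul_sum_range]
  show x.toMul = _ * ∏ i ∈ Finset.range p, g ^ i • (b : Eˣ)
  rw [toMul_ofMul, e, hx', mul_inv_cancel_left]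

end Fermat.Agent.CFT.Form
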