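import Fermat.Agent.CFT.Form.Statement
import Fermat.Agent.CFT.Form.LocalAux
import Fermat.Agent.CFT.Form.LocalOrder
import Fermat.Agent.CFT.Form.LocalStep

/-!
# The local class formation and local-global injectivity

A class of `Gal(E/ℚ_q)` whose image among idele classes has full order at the `p`-subgroups makes
both the completion and the idele classes class formations for the local Galois group.
-/

set_option autoImplicit false
set_option synthInstance.maxHeartbeats 200000
set_option linter.unusedSectionVars false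
set_option linter.style.haveILetI false

noncomputable section

namespace Fermat.Agent.CFT.Form

open ExtCitation Fermat.Agent.Arith IntermediateField Fermat.Agent.CFT.Local Fermat.Agent.CFT.Idele
open groupCohomology

local instance factPrimeLocalFormation (q : Nat.Primes) : Fact (q : ℕ).Prime := ⟨q.2⟩

variable {p : ℕ} [Fact p.Prime] {L : IntermediateField ℚ QBar} [FiniteDimensional ℚ L] [Normal ℚ L]
  {q : Nat.Primes}

/-- The action of the local Galois group on idele classes. -/
local instance localCAction : DistribMulAction (E L q ≃ₐ[ℚ_[(q : ℕ)]] E L q) (C L) :=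
  DistribMulAction.compHom (C L) (toGlobal (q : ℕ) L)

theorem localC_smul (g : E L q ≃ₐ[ℚ_[(q : ℕ)]] E L q) (x : C L) :
    g • x = toGlobal (q : ℕ) L g • x := rfl

theorem proj_loc'_smul (g : E L q ≃ₐ[ℚ_[(q : ℕ)]] E L q) (y : Additive (E L q)ˣ) :
    g • proj L (loc' L q y) = proj L (loc' L q (g • y)) := by
  rw [localC_smul, ← proj_smul, loc'_smul]

/-- The image among idele classes of a local class. -/
def classImage (u : NormCocycle (E L q ≃ₐ[ℚ_[(q : ℕ)]] E L q) (Additive (E L q)ˣ)) :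
    NormCocycle (E L q ≃ₐ[ℚ_[(q : ℕ)]] E L q) (C L) where
  toFun gh := proj L (loc' L q (u.toFun gh))
  isCocycle g h j := by rw [proj_loc'_smul, ← map_add, ← map_add, ← map_add, ← map_add, u.isCocycle]
  one_left g := by rw [u.one_left, map_zero, map_zero]

/-- The zero class. -/
def zeroClass : NormCocycle (E L q ≃ₐ[ℚ_[(q : ℕ)]] E L q) (Additive (E L q)ˣ) :=
  ⟨fun _ => 0, fun g h j => by simp, fun _ => rfl⟩

/-- A local class with image of full order at the Sylow subgroup, the nontrivial case. -/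
theorem exists_class_of_aux {n : ℕ} [NeZero n] (hp2 : p ≠ 2) {L' : IntermediateField ℚ QBar}
    [FiniteDimensional ℚ L'] [Normal ℚ L'] (hLL : L ≤ L') (a : Aux n) (hFL : a.fixedChi ≤ L')
    (hsup : L' = L ⊔ a.fixedChi) {ζ : L} (hζ : IsPrimitiveRoot ζ p) (hq : q ≠ a.q)
    (hlog : a.log (a.unitOf (a.not_dvd_of_ne hq)) = Multiplicative.ofAdd 1)
    {k₀ : ℕ} (hk₀ : 0 < k₀) (hn : n = p ^ k₀)
    (hcard : (Nat.card (E L q ≃ₐ[ℚ_[(q : ℕ)]] E L q)).factorization p = k₀) :
    ∃ u : NormCocycle (E L q ≃ₐ[ℚ_[(q : ℕ)]] E L q) (Additive (E L q)ˣ),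
      IsClassFormation p (classImage u) := by
  have hp : p.Prime := Fact.out
  obtain ⟨u, b, hu⟩ := exists_localClass hLL a hFL hsup hq (q := q)
    (by rw [hn, ← hcard]; exact Nat.ordProj_dvd _ p)
  refine ⟨u, (stepAxioms_comap (toGlobal (q : ℕ) L) (toGlobal_injective (q : ℕ) L)
    (fun _ _ => rfl) (Idele.stepAxioms L hp2 hζ)).isClassFormation _ fun P k hk => ?_⟩
  obtain ⟨β, hβ⟩ := hk
  have hζ' : IsPrimitiveRoot (IntermediateField.inclusion hLL ζ) p :=
    hζ.map_of_injective (IntermediateField.inclusion_injective hLL)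
  rw [P.card_eq_multiplicity, hcard, ← hn]
  exact local_dvd_of_coboundary hLL a hFL (P : Subgroup _) hp2 hζ' hsup hq hlog
    (hn ▸ Nat.one_lt_pow hk₀.ne' hp.one_lt) (hn ▸ (hp.odd_of_ne_two hp2).pow)
    (IsPGroup.of_card (n := k₀) (by rw [Nat.card_congr Multiplicative.toAdd, Nat.card_zmod, hn]))
    P.isPGroup' (hn ▸ Nat.Coprime.pow_left _ (hp.coprime_iff_not_dvd.2 P.not_dvd_index))
    u b hu k β hβ

variable (q) in
/-- A local class with image of full order. -/
theorem exists_class (hp2 : p ≠ 2) {ζ : L} (hζ : IsPrimitiveRoot ζ p) :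
    ∃ u : NormCocycle (E L q ≃ₐ[ℚ_[(q : ℕ)]] E L q) (Additive (E L q)ˣ),
      IsClassFormation p (classImage u) := by
  rcases Nat.eq_zero_or_pos ((Nat.card (E L q ≃ₐ[ℚ_[(q : ℕ)]] E L q)).factorization p) with h0 | hk
  · refine ⟨zeroClass, (stepAxioms_comap (toGlobal (q : ℕ) L) (toGlobal_injective (q : ℕ) L)
      (fun _ _ => rfl) (Idele.stepAxioms L hp2 hζ)).isClassFormation _ fun P k _ => ?_⟩
    rw [P.card_eq_multiplicity, h0, pow_zero, Nat.cast_one]
    exact one_dvd k
  · haveI : NeZero (p ^ (Nat.card (E L q ≃ₐ[ℚ_[(q : ℕ)]] E L q)).factorization p) :=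
      ⟨pow_ne_zero _ (Fact.out : p.Prime).ne_zero⟩
    obtain ⟨a, hq, hlog⟩ := exists_aux_generator hp2 q hk
    haveI : Normal ℚ (L ⊔ a.fixedChi : IntermediateField ℚ QBar) :=
      @IntermediateField.normal_sup ℚ QBar _ _ _ L a.fixedChi ‹_›
        a.isGalois_fixedChi.to_normal
    exact exists_class_of_aux hp2 (le_sup_left (b := a.fixedChi)) a le_sup_right rfl hζ hq hlog hk
      rfl rfl

theorem sub_sub_add_sub {A : Type*} [AddCommGroup A] (x y z x' y' z' : A) :
    x - x' - (y - y') + (z - z') = x - y + z - (x' - y' + z') := by abel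

theorem isClassFormation_of_image {u : NormCocycle (E L q ≃ₐ[ℚ_[(q : ℕ)]] E L q) (Additive (E L q)ˣ)}
    (hu : IsClassFormation p (classImage u)) : IsClassFormation p u := by
  refine (localStepAxioms (p := p)).isClassFormation u fun P k hk => ?_
  obtain ⟨b, hb⟩ := hk
  refine hu.order _ P.isPGroup' k ⟨fun g => proj L (loc' L q (b g)), fun g h => ?_⟩
  show (g : E L q ≃ₐ[ℚ_[(q : ℕ)]] E L q) • proj L (loc' L q (b h)) - _ + _ = _
  rw [proj_loc'_smul, ← map_sub, ← map_sub, ← map_add, ← map_add]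
  show _ = k • proj L (loc' L q _)
  rw [← map_zsmul, ← map_zsmul]
  exact congrArg (fun y => proj L (loc' L q y)) (hb g h)

/-- The units of the completion form a class formation. -/
theorem localFormation {p : ℕ} [Fact p.Prime] (hp2 : p ≠ 2) (L : IntermediateField ℚ QBar)
    [FiniteDimensional ℚ L] [Normal ℚ L] {ζ : L} (hζ : IsPrimitiveRoot ζ p) (q : Nat.Primes) :
    LocalFormationProperty p L q :=
  let ⟨u, hu⟩ := exists_class q hp2 hζ
  ⟨u, isClassFormation_of_image hu⟩

set_option maxHeartbeats 1000000 in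
/-- A local class dying among idele classes is trivial. -/
theorem localGlobal {p : ℕ} [Fact p.Prime] (hp2 : p ≠ 2) (L : IntermediateField ℚ QBar)
    [FiniteDimensional ℚ L] [Normal ℚ L] {ζ : L} (hζ : IsPrimitiveRoot ζ p) (q : Nat.Primes) :
    LocalGlobalProperty p L q := by
  intro H hH c hc hglob
  obtain ⟨u, hu⟩ := exists_class q hp2 hζ
  obtain ⟨k, b, hb⟩ := (isClassFormation_of_image hu).generates H hH c hc
  obtain ⟨β, hβ⟩ := hglob
  have hk : (Nat.card H : ℤ) ∣ k := by
    refine hu.order H hH k ⟨fun g => β g - proj L (loc' L q (b g)), fun g h => ?_⟩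
    have e := congrArg (fun y => proj L (loc' L q y)) (hb g h)
    simp only [map_add, map_sub, map_zsmul, Subgroup.smul_def, ← proj_loc'_smul] at e
    show (g : E L q ≃ₐ[ℚ_[(q : ℕ)]] E L q) • (β h - proj L (loc' L q (b h))) - _ + _ =
      k • proj L (loc' L q _)
    have e' := hβ g h
    rw [← localC_smul] at e'
    rw [smul_sub, sub_sub_add_sub, e, e', sub_sub_self]
  obtain ⟨d, rfl⟩ := hk
  set uH : H × H → Additive (E L q)ˣ := fun gh => u.toFun
    ((gh.1 : E L q ≃ₐ[ℚ_[(q : ℕ)]] E L q), (gh.2 : E L q ≃ₐ[_] E L q)) with huH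
  have huc : IsCocycle₂ uH := fun g h j =>
    u.isCocycle (g : E L q ≃ₐ[_] E L q) (h : E L q ≃ₐ[_] E L q) (j : E L q ≃ₐ[_] E L q)
  have hlA : CFT.StepAxioms p (E L q ≃ₐ[ℚ_[(q : ℕ)]] E L q) (Additive (E L q)ˣ) := localStepAxioms
  have h2 : ((Nat.card H : ℤ) * d) • uH ∈ cobound₂ H (Additive (E L q)ˣ) := by
    rw [mul_comm, mul_smul]
    exact AddSubgroup.zsmul_mem _ (hlA.card_zsmul_mem H hH uH huc) d
  show c ∈ cobound₂ H (Additive (E L q)ˣ)
  have hb' : (c - ((Nat.card H : ℤ) * d) • uH) ∈ cobound₂ H (Additive (E L q)ˣ) := ⟨b, hb⟩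
  have h4 := add_mem hb' h2
  rwa [sub_add_cancel] at h4

end Fermat.Agent.CFT.Form
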