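import Fermat.Agent.CFT.Form.LocalSemi

/-!
# The character of the norm of `qIdele`

An invariant idele whose class is a norm from the cyclic field has trivial character, and the sum
of `qIdele` over the cosets of `upSub` is `q` to the power of the index of `P`.
-/

set_option autoImplicit false
set_option synthInstance.maxHeartbeats 200000
set_option linter.unusedSectionVars false
set_option linter.style.haveILetI false

noncomputable section

namespace Fermat.Agent.CFT.Form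

open ExtCitation Fermat.Agent.Arith IntermediateField Fermat.Agent.CFT.Local Fermat.Agent.CFT.Idele
open Fermat.Agent.CFT.Duality groupCohomology

local instance factPrimeLocalPsi (q : Nat.Primes) : Fact (q : ℕ).Prime := ⟨q.2⟩

variable {n : ℕ} [NeZero n] {L L' : IntermediateField ℚ QBar} [FiniteDimensional ℚ L] [Normal ℚ L]
  [FiniteDimensional ℚ L'] [Normal ℚ L'] (hLL : L ≤ L') (a : Aux n) (hFL : a.fixedChi ≤ L')
  (q : Nat.Primes) (P : Subgroup (E L q ≃ₐ[ℚ_[(q : ℕ)]] E L q))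

/-- An invariant idele is an idele of `ℚ`. -/
theorem mem_idl_bot_of_fixed {f : idl L'} (hf : ∀ σ : L' ≃ₐ[ℚ] L', σ • f = f) :
    (f : PreIdele) ∈ idl (⊥ : IntermediateField ℚ QBar) := by
  obtain ⟨h1, h2, -⟩ := mem_idl.1 f.2
  refine mem_idl.2 ⟨h1, h2, fun s _ => ?_⟩
  exact (coe_smul_idl L' _ f rfl).symm.trans (congrArg Subtype.val (hf (res L' s)))

/-- An invariant idele as an idele of `ℚ`. -/
def toBot (N : J L') (hN : ∀ σ : L' ≃ₐ[ℚ] L', σ • N = N) : idl (⊥ : IntermediateField ℚ QBar) :=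
  ⟨_, mem_idl_bot_of_fixed fun σ => congrArg Additive.toMul (hN σ)⟩

theorem algebraMap_botVal (N : J L') (hN : ∀ σ : L' ≃ₐ[ℚ] L', σ • N = N) (l : Nat.Primes) :
    algebraMap ℚ_[(l : ℕ)] (E L' l) (botVal l (toBot N hN) : ℚ_[(l : ℕ)]) =
      ((val N.toMul l 1 : (E L' l)ˣ) : E L' l) := by
  refine Subtype.ext ?_
  rw [coe_val _ l (map_one (res L'))]
  exact botVal_spec l (toBot N hN) 1

/-- An invariant idele whose class is a norm from the cyclic field has trivial character. -/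
theorem psi_eq_one_of_class (hn : Odd n) (N : J L') (hN : ∀ σ : L' ≃ₐ[ℚ] L', σ • N = N)
    (W : C a.fixedChi)
    (hW : proj L' N = Idele.inclC hFL (∑ σ : a.fixedChi ≃ₐ[ℚ] a.fixedChi, σ • W)) :
    psi a (toBot N hN) = 1 := by
  obtain ⟨Y, rfl⟩ := proj_surjective a.fixedChi W
  set S : J a.fixedChi := ∑ σ : a.fixedChi ≃ₐ[ℚ] a.fixedChi, σ • Y with hS
  have hS' : ∀ τ : a.fixedChi ≃ₐ[ℚ] a.fixedChi, τ • S = S := fun τ => by
    rw [hS, Finset.smul_sum]
    exact Fintype.sum_equiv (Equiv.mulLeft τ) _ _ fun σ => (mul_smul τ σ Y).symm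
  rw [show (∑ σ : a.fixedChi ≃ₐ[ℚ] a.fixedChi, σ • proj a.fixedChi Y) = proj a.fixedChi S by
    rw [hS, map_sum]; exact Finset.sum_congr rfl fun σ _ => (proj_smul _ σ Y).symm,
    ← proj_inclJ', ← sub_eq_zero, ← map_sub, proj_eq_zero_iff] at hW
  obtain ⟨c, hc⟩ := hW
  set x := Units.map L'.val.toRingHom.toMonoidHom c
  have hc' : prin x = (N.toMul : PreIdele) / (S.toMul : PreIdele) := congrArg Subtype.val hc
  have hM : (S.toMul : PreIdele) ∈ idl (⊥ : IntermediateField ℚ QBar) :=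
    mem_idl_bot_of_fixed fun σ => congrArg Additive.toMul (hS' σ)
  have hx : prin x ∈ idl (⊥ : IntermediateField ℚ QBar) := hc' ▸ div_mem (toBot N hN).2 hM
  have e : toBot N hN = ⟨prin x, hx⟩ * ⟨_, hM⟩ := Subtype.ext
    (show (N.toMul : PreIdele) = prin x * (S.toMul : PreIdele) by rw [hc', div_mul_cancel])
  rw [e, map_mul, psi_prin a hn, one_mul]
  refine psi_norm a Y.toMul _ ?_
  show (S.toMul : PreIdele) = _
  rw [hS, toMul_sum]
  rfl

theorem val_sumQ (K : Subgroup (L' ≃ₐ[ℚ] L')) (x : J L') (l : Nat.Primes) :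
    haveI := Fintype.ofFinite ((L' ≃ₐ[ℚ] L') ⧸ K)
    val (sumQ K x).toMul l 1 = ∏ c : (L' ≃ₐ[ℚ] L') ⧸ K, val x.toMul l c.out := by
  rw [sumQ, toMul_sum, val_prod]
  exact Finset.prod_congr rfl fun c _ => by rw [val_smul_J, one_mul]

theorem upSub_comap : (upSub hLL q P).comap (toGlobal (q : ℕ) L') = P.comap (localRes hLL q) := by
  rw [upSub, Subgroup.comap_comap,
    show (Idele.resTo hLL).comp (toGlobal (q : ℕ) L') = (toGlobal (q : ℕ) L).comp (localRes hLL q)
      from MonoidHom.ext fun s => resTo_toGlobal hLL q s, ← Subgroup.comap_comap,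
    Subgroup.comap_map_eq_self_of_injective (toGlobal_injective (q : ℕ) L)]

/-- The places of the double coset are as many as the index of `P`. -/
theorem card_placeSet :
    Nat.card {c : (L' ≃ₐ[ℚ] L') ⧸ upSub hLL q P // c.out ∈ placeSet hLL q P} = P.index := by
  set g := toGlobal (q : ℕ) L'
  rw [← P.index_comap_of_surjective (localRes_surjective hLL q), ← upSub_comap hLL q P,
    Subgroup.index]
  have hout : ∀ σ : L' ≃ₐ[ℚ] L',
      ((QuotientGroup.mk σ : (L' ≃ₐ[ℚ] L') ⧸ upSub hLL q P).out ∈ placeSet hLL q P ↔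
        σ ∈ placeSet hLL q P) := fun σ => by
    obtain ⟨h, e⟩ := QuotientGroup.mk_out_eq_mul (upSub hLL q P) σ
    rw [e, mul_mem_placeSet_iff hLL q P h.2]
  let F : (E L' q ≃ₐ[ℚ_[(q : ℕ)]] E L' q) ⧸ (upSub hLL q P).comap g →
      {c : (L' ≃ₐ[ℚ] L') ⧸ upSub hLL q P // c.out ∈ placeSet hLL q P} := fun z =>
    ⟨QuotientGroup.mk (g z.out), (hout _).2 ⟨z.out, 1, one_mem _, (mul_one _).symm⟩⟩
  refine (Nat.card_congr (Equiv.ofBijective F ⟨fun z z' h => ?_, fun c => ?_⟩)).symm
  · have h' := QuotientGroup.eq.1 (congrArg Subtype.val h)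
    rw [← map_inv, ← map_mul] at h'
    rw [← QuotientGroup.out_eq' z, ← QuotientGroup.out_eq' z']
    exact QuotientGroup.eq.2 h'
  · obtain ⟨t, h, hh, e⟩ := c.2
    refine ⟨QuotientGroup.mk t, Subtype.ext ?_⟩
    show QuotientGroup.mk _ = c.1
    obtain ⟨d, hd⟩ := QuotientGroup.mk_out_eq_mul ((upSub hLL q P).comap g) t
    rw [← QuotientGroup.out_eq' c.1, hd, e, map_mul]
    refine QuotientGroup.eq.2 ?_
    rw [mul_inv_rev, mul_assoc, inv_mul_cancel_left]
    exact mul_mem (inv_mem d.2) hh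

variable {q}

/-- The norm of `q ^ k` on the double coset is killed by the character only if `n ∣ k [G : P]`. -/
theorem dvd_mul_index (hq : q ≠ a.q)
    (hlog : a.log (a.unitOf (a.not_dvd_of_ne hq)) = Multiplicative.ofAdd 1) (k : ℤ)
    (hN : ∀ σ : L' ≃ₐ[ℚ] L', σ • sumQ (upSub hLL q P) (k • qIdele hLL q P) =
      sumQ (upSub hLL q P) (k • qIdele hLL q P))
    (h : psi a (toBot _ hN) = 1) : (n : ℤ) ∣ k * (P.index : ℤ) := by
  classical
  letI := Fintype.ofFinite ((L' ≃ₐ[ℚ] L') ⧸ upSub hLL q P)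
  have hz : ∀ (l : Nat.Primes) (σ : L' ≃ₐ[ℚ] L'), val (k • qIdele hLL q P).toMul l σ =
      val (qIdele hLL q P).toMul l σ ^ k := fun l σ => map_zpow (valHom l σ) _ k
  have hne : ∀ l, l ≠ q → botVal l (toBot _ hN) = 1 := fun l hl => by
    refine Units.ext ((algebraMap ℚ_[(l : ℕ)] (E L' l)).injective ?_)
    rw [algebraMap_botVal, val_sumQ, Units.val_one, map_one,
      Finset.prod_eq_one fun c _ => by rw [hz, val_qIdele_ne _ _ _ hl, one_zpow]]
    rfl
  have heq : (botVal q (toBot _ hN) : ℚ_[(q : ℕ)]) = ((q : ℕ) : ℚ_[(q : ℕ)]) ^ (k * (P.index : ℤ)) := by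
    refine (algebraMap ℚ_[(q : ℕ)] (E L' q)).injective ?_
    rw [algebraMap_botVal, val_sumQ, map_zpow₀, map_natCast]
    simp only [hz, val_qIdele, ite_pow, one_zpow]
    rw [Finset.prod_ite, Finset.prod_const_one, mul_one, Finset.prod_const,
      show (Finset.univ.filter fun c : (L' ≃ₐ[ℚ] L') ⧸ upSub hLL q P =>
        c.out ∈ placeSet hLL q P).card = P.index by
        rw [← card_placeSet hLL q P, Nat.card_eq_fintype_card, Fintype.card_subtype],
      zpow_mul, zpow_natCast, Units.val_pow_eq_pow_val, Units.val_zpow_eq_zpow_val]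
    rfl
  rw [psi_of_single a hq (by rw [hne _ (Ne.symm hq), map_one]) fun l hl => by
      rw [hne l hl, Units.val_one, norm_one],
    inv_eq_one, hlog, heq, Padic.valuation_zpow, Padic.valuation_p, mul_one, ← ofAdd_zsmul,
    ← ofAdd_zero, Multiplicative.ofAdd.injective.eq_iff, zsmul_one,
    ZMod.intCast_zmod_eq_zero_iff_dvd] at h
  exact h

end Fermat.Agent.CFT.Form
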