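import Fermat.Agent.CFT.Idele.Incl
import Fermat.Agent.CFT.Idele.Classes

/-!
# Restriction between the completions of two normal fields

For `L ≤ L'` finite normal: `localRes : Gal(E'/ℚ_q) → Gal(E/ℚ_q)`, the inclusion of units, and
their compatibility with `toGlobal` and with the ideles.
-/

set_option autoImplicit false
set_option synthInstance.maxHeartbeats 200000
set_option linter.unusedSectionVars false

noncomputable section

namespace Fermat.Agent.CFT.Form

open ExtCitation Fermat.Agent.Arith IntermediateField Fermat.Agent.CFT.Local Fermat.Agent.CFT.Idele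

local instance factPrimeLocalRes (q : Nat.Primes) : Fact (q : ℕ).Prime := ⟨q.2⟩

variable {L L' : IntermediateField ℚ QBar} [FiniteDimensional ℚ L] [Normal ℚ L]
  [FiniteDimensional ℚ L'] [Normal ℚ L'] (hLL : L ≤ L') (q : Nat.Primes)

/-- The inclusion of completions. -/
def inclE : E L q →ₐ[ℚ_[(q : ℕ)]] E L' q :=
  IntermediateField.inclusion (localField_mono (q : ℕ) hLL)

theorem coe_inclE (y : E L q) : ((inclE hLL q y : E L' q) : Ω q) = (y : Ω q) :=
  IntermediateField.coe_inclusion (localField_mono (q : ℕ) hLL) y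

theorem inclE_injective : Function.Injective (inclE hLL q : E L q → E L' q) :=
  IntermediateField.inclusion_injective (localField_mono (q : ℕ) hLL)

theorem inclE_mk (y : E L q) :
    inclE hLL q y = ⟨(y : Ω q), localField_mono (q : ℕ) hLL y.2⟩ := Subtype.ext (coe_inclE hLL q y)

/-- The restriction as a bare automorphism. -/
def localResFun (σ : E L' q ≃ₐ[ℚ_[(q : ℕ)]] E L' q) : E L q ≃ₐ[ℚ_[(q : ℕ)]] E L q :=
  AlgEquiv.restrictNormalHom (E L q) (σ.liftNormal (Ω q))

theorem inclE_localResFun (σ : E L' q ≃ₐ[ℚ_[(q : ℕ)]] E L' q) (y : E L q) :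
    inclE hLL q (localResFun q σ y) = σ (inclE hLL q y) := by
  refine Subtype.ext ?_
  rw [coe_inclE]
  exact (AlgEquiv.restrictNormal_commutes (σ.liftNormal (Ω q)) (E L q) y).trans
    (AlgEquiv.liftNormal_commutes σ (Ω q) (inclE hLL q y))

/-- The restriction of local Galois groups. -/
def localRes : (E L' q ≃ₐ[ℚ_[(q : ℕ)]] E L' q) →* (E L q ≃ₐ[ℚ_[(q : ℕ)]] E L q) :=
  MonoidHom.mk' (localResFun q) fun σ τ => AlgEquiv.ext fun y => (inclE_injective hLL q) <| by
    rw [AlgEquiv.mul_apply, inclE_localResFun, inclE_localResFun, inclE_localResFun,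
      AlgEquiv.mul_apply]

theorem inclE_localRes (σ : E L' q ≃ₐ[ℚ_[(q : ℕ)]] E L' q) (y : E L q) :
    inclE hLL q (localRes hLL q σ y) = σ (inclE hLL q y) := inclE_localResFun hLL q σ y

theorem localRes_surjective : Function.Surjective (localRes hLL q) := fun σ => by
  obtain ⟨τ, rfl⟩ := AlgEquiv.restrictNormalHom_surjective (K₁ := E L q) (Ω q) σ
  refine ⟨AlgEquiv.restrictNormalHom (E L' q) τ, AlgEquiv.ext fun y =>
    (inclE_injective hLL q) (Subtype.ext ?_)⟩
  rw [inclE_localRes, coe_inclE]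
  exact (AlgEquiv.restrictNormal_commutes τ (E L' q) _).trans
    (AlgEquiv.restrictNormal_commutes τ (E L q) y).symm

/-- Elements fixed by the kernel come from the smaller completion. -/
theorem exists_inclE_eq {x : E L' q} (hx : ∀ σ ∈ (localRes hLL q).ker, σ x = x) :
    ∃ y, inclE hLL q y = x := by
  have hmem : (x : Ω q) ∈ E L q := by
    rw [← InfiniteGalois.fixedField_fixingSubgroup (E L q), IntermediateField.mem_fixedField_iff]
    intro τ hτ
    have hk : AlgEquiv.restrictNormalHom (E L' q) τ ∈ (localRes hLL q).ker := by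
      refine MonoidHom.mem_ker.2 (AlgEquiv.ext fun y => (inclE_injective hLL q) (Subtype.ext ?_))
      rw [inclE_localRes, AlgEquiv.one_apply, coe_inclE]
      exact (AlgEquiv.restrictNormal_commutes τ (E L' q) _).trans
        ((IntermediateField.mem_fixingSubgroup_iff _ _).1 hτ _ y.2)
    exact (AlgEquiv.restrictNormal_commutes τ (E L' q) x).symm.trans
      (congrArg Subtype.val (hx _ hk))
  exact ⟨⟨x, hmem⟩, rfl⟩

theorem resTo_toGlobal (σ : E L' q ≃ₐ[ℚ_[(q : ℕ)]] E L' q) :
    resTo hLL (toGlobal (q : ℕ) L' σ) = toGlobal (q : ℕ) L (localRes hLL q σ) := by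
  refine AlgEquiv.ext fun x => Subtype.ext ?_
  have hσ : ∀ y : E L q, ((localRes hLL q σ y : E L q) : Ω q) =
      ((σ ⟨(y : Ω q), localField_mono (q : ℕ) hLL y.2⟩ : E L' q) : Ω q) := fun y => by
    rw [← coe_inclE hLL q (localRes hLL q σ y), inclE_localRes, inclE_mk]
  rw [toGlobal_compat (q : ℕ) L hLL (localRes hLL q σ) σ hσ x]
  show ((res L (lift L' (toGlobal (q : ℕ) L' σ)) x : L) : QBar) = _
  rw [res_apply]
  conv_rhs => rw [← res_lift L' (toGlobal (q : ℕ) L' σ), res_apply]

/-- The inclusion of the units. -/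
def inclU : Additive (E L q)ˣ →+ Additive (E L' q)ˣ :=
  MonoidHom.toAdditive (Units.map (inclE hLL q).toRingHom.toMonoidHom)

theorem coe_inclU (y : Additive (E L q)ˣ) :
    (((inclU hLL q y).toMul : (E L' q)ˣ) : E L' q) = inclE hLL q ((y.toMul : (E L q)ˣ) : E L q) :=
  rfl

theorem inclU_injective : Function.Injective (inclU hLL q) := fun _ _ h =>
  Units.map_injective (inclE_injective hLL q) h

theorem smul_inclU (σ : E L' q ≃ₐ[ℚ_[(q : ℕ)]] E L' q) (y : Additive (E L q)ˣ) :
    σ • inclU hLL q y = inclU hLL q (localRes hLL q σ • y) :=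
  Additive.toMul.injective (Units.ext (inclE_localRes hLL q σ _).symm)

theorem exists_inclU_eq {a : Additive (E L' q)ˣ}
    (ha : ∀ σ : (localRes hLL q).ker, (σ : E L' q ≃ₐ[ℚ_[(q : ℕ)]] E L' q) • a = a) :
    ∃ y, inclU hLL q y = a := by
  obtain ⟨y, hy⟩ := exists_inclE_eq hLL q (x := ((a.toMul : (E L' q)ˣ) : E L' q))
    fun σ hσ => congrArg (fun b : Additive (E L' q)ˣ => ((b.toMul : (E L' q)ˣ) : E L' q)) (ha ⟨σ, hσ⟩)
  refine ⟨Additive.ofMul (Units.mk0 y fun h0 => a.toMul.ne_zero (by rw [← hy, h0, map_zero])),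
    Additive.toMul.injective (Units.ext hy)⟩

theorem coe_val_inclIdl' (f : idl L) (l : Nat.Primes) (σ : L' ≃ₐ[ℚ] L') :
    (((val (Idele.inclIdl hLL f) l σ : (E L' l)ˣ) : E L' l) : Ω l) =
      (((val f l (resTo hLL σ) : (E L l)ˣ) : E L l) : Ω l) := by
  rw [coe_val _ l (res_lift L' σ)]
  exact (coe_val f l (rfl : res L (Idele.lift L' σ) = resTo hLL σ)).symm

/-- The inclusion of ideles, additively. -/
def inclJ' : J L →+ J L' := MonoidHom.toAdditive (Idele.inclIdl hLL)

theorem smul_inclJ' (σ : L' ≃ₐ[ℚ] L') (x : J L) :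
    σ • inclJ' hLL x = inclJ' hLL (resTo hLL σ • x) :=
  congrArg Additive.ofMul (inclIdl_smul hLL σ x.toMul).symm

theorem proj_inclJ' (x : J L) : proj L' (inclJ' hLL x) = inclC hLL (proj L x) := rfl

theorem val_inclJ'_loc' (y : Additive (E L q)ˣ) :
    val (inclJ' hLL (loc' L q y)).toMul q 1 = (inclU hLL q y).toMul := by
  refine Units.ext (Subtype.ext ?_)
  show (((val (Idele.inclIdl hLL (locIdl q y.toMul)) q 1 : (E L' q)ˣ) : E L' q) : Ω q) = _
  rw [coe_val_inclIdl', map_one, ← map_one (toGlobal (q : ℕ) L), val_locIdl_self, one_smul,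
    coe_inclU, coe_inclE]

end Fermat.Agent.CFT.Form
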