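import Fermat.Agent.CFT.Form.LocalClass
import Fermat.Agent.CFT.Duality.Semilocal
import Fermat.Agent.CFT.PT.SemiH2
import Fermat.Agent.CFT.PT.SupportedH1

/-!
# The local class among the ideles of the larger field

On the preimage `Pup` in `Gal(L'/ℚ)` of a local subgroup `P`, the image of the local class is the
carry cocycle of the idele `qIdele` up to a coboundary, by Shapiro's lemma for semilocal modules.
-/

set_option autoImplicit false
set_option synthInstance.maxHeartbeats 200000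
set_option linter.unusedSectionVars false
set_option linter.style.haveILetI false

noncomputable section

namespace Fermat.Agent.CFT.Form

open ExtCitation Fermat.Agent.Arith IntermediateField Fermat.Agent.CFT.Local Fermat.Agent.CFT.Idele
open Fermat.Agent.CFT.Duality groupCohomology

local instance factPrimeLocalSemi (q : Nat.Primes) : Fact (q : ℕ).Prime := ⟨q.2⟩

variable {n : ℕ} [NeZero n] {L L' : IntermediateField ℚ QBar} [FiniteDimensional ℚ L] [Normal ℚ L]
  [FiniteDimensional ℚ L'] [Normal ℚ L'] (hLL : L ≤ L') (a : Aux n) (hFL : a.fixedChi ≤ L')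
  (q : Nat.Primes) (P : Subgroup (E L q ≃ₐ[ℚ_[(q : ℕ)]] E L q))

/-- The preimage of a local subgroup in the Galois group of the larger field. -/
def upSub : Subgroup (L' ≃ₐ[ℚ] L') := (P.map (toGlobal (q : ℕ) L)).comap (Idele.resTo hLL)

/-- The double coset of the distinguished place. -/
def placeSet : Set (L' ≃ₐ[ℚ] L') :=
  {σ | ∃ t, ∃ h ∈ upSub hLL q P, σ = toGlobal (q : ℕ) L' t * h}

/-- Ideles supported at the places of the double coset. -/
def semiSub : AddSubgroup (J L') where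
  carrier := {x | x ∈ supportedIn L' {q} ∧ ∀ σ ∉ placeSet hLL q P, val x.toMul q σ = 1}
  zero_mem' := ⟨zero_mem _, fun σ _ => val_one q σ⟩
  add_mem' {x y} hx hy := ⟨add_mem hx.1 hy.1, fun σ hσ => by
    rw [show val (x + y).toMul q σ = val x.toMul q σ * val y.toMul q σ from val_mul _ _ q σ,
      hx.2 σ hσ, hy.2 σ hσ, one_mul]⟩
  neg_mem' {x} hx := ⟨neg_mem hx.1, fun σ hσ => by
    rw [show val (-x).toMul q σ = (val x.toMul q σ)⁻¹ from map_inv (valHom q σ) x.toMul, hx.2 σ hσ,
      inv_one]⟩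

theorem mul_mem_placeSet_iff {σ h : L' ≃ₐ[ℚ] L'} (hh : h ∈ upSub hLL q P) :
    σ * h ∈ placeSet hLL q P ↔ σ ∈ placeSet hLL q P := by
  constructor
  · rintro ⟨t, h', hh', e⟩
    exact ⟨t, h' * h⁻¹, mul_mem hh' (inv_mem hh), by rw [← mul_assoc, ← e, mul_inv_cancel_right]⟩
  · rintro ⟨t, h', hh', rfl⟩
    exact ⟨t, h' * h, mul_mem hh' hh, mul_assoc _ _ _⟩

theorem toGlobal_mul_mem_placeSet_iff {σ : L' ≃ₐ[ℚ] L'} (t : E L' q ≃ₐ[ℚ_[(q : ℕ)]] E L' q) :
    toGlobal (q : ℕ) L' t * σ ∈ placeSet hLL q P ↔ σ ∈ placeSet hLL q P := by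
  constructor
  · rintro ⟨t', h', hh', e⟩
    refine ⟨t⁻¹ * t', h', hh', ?_⟩
    rw [map_mul, map_inv, mul_assoc, ← e, inv_mul_cancel_left]
  · rintro ⟨t', h', hh', rfl⟩
    exact ⟨t * t', h', hh', by rw [map_mul, mul_assoc]⟩

theorem smul_mem_semiSub {g : L' ≃ₐ[ℚ] L'} (hg : g ∈ upSub hLL q P) {x : J L'}
    (hx : x ∈ semiSub hLL q P) : g • x ∈ semiSub hLL q P :=
  ⟨smul_mem_supportedIn g hx.1, fun σ hσ => by
    rw [val_smul_J]; exact hx.2 _ fun h => hσ ((mul_mem_placeSet_iff hLL q P hg).1 h)⟩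

theorem val_loc'_self (y : Additive (E L' q)ˣ) :
    val (loc' L' q y).toMul q 1 = y.toMul := by
  show val (locIdl q y.toMul) q 1 = _
  rw [← map_one (toGlobal (q : ℕ) L'), val_locIdl_self, one_smul]

theorem locPart_loc' (y : Additive (E L' q)ˣ) : locPart L' q (loc' L' q y) = loc' L' q y := by
  rw [locPart_apply, val_loc'_self]
  rfl

/-- The semilocal module is coinduced from the decomposition group. -/
theorem semiProj_semiSub :
    PT.SemiProj ((decomp L' q).subgroupOf (upSub hLL q P)) (locPart L' q) (semiSub hLL q P) where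
  mem z := by
    refine ⟨fun q' hq' σ => val_locIdl_of_ne q _ (by simpa using hq') σ, fun σ hσ => ?_⟩
    exact val_locIdl_of_notMem q _ fun ⟨t, ht⟩ => hσ ⟨t, 1, one_mem _, by rw [mul_one, ht]⟩
  smul_mem g z hz := smul_mem_semiSub hLL q P g.2 hz
  comm d hd z := locPart_smul q (Subgroup.mem_subgroupOf.1 hd) z
  idem z := locPart_loc' q (Additive.ofMul (val z.toMul q 1))
  off g hg z := by
    rw [locPart_apply]
    have : val ((g : L' ≃ₐ[ℚ] L') • locPart L' q z).toMul q 1 = 1 := by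
      rw [val_smul_J, one_mul, locPart_apply]
      exact val_locIdl_of_notMem q _ fun hm => hg (Subgroup.mem_subgroupOf.2 hm)
    show loc' L' q (Additive.ofMul (val ((g : L' ≃ₐ[ℚ] L') • locPart L' q z).toMul q 1)) = 0
    rw [this, ofMul_one, map_zero]
  ext z hz h := J_ext fun q' σ => by
    rw [show val (0 : J L').toMul q' σ = 1 from val_one q' σ]
    rcases eq_or_ne q' q with rfl | hne
    · by_cases hσ : σ ∈ placeSet hLL q' P
      · obtain ⟨t, g, hg, rfl⟩ := hσ
        rw [val_toGlobal_mul]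
        have h1 := congrArg (fun x : J L' => val x.toMul q' 1) (h ⟨g, hg⟩)
        simp only [locPart_apply, val_loc'_self, toMul_ofMul] at h1
        rw [show val z.toMul q' g = 1 from by
          rw [show ((⟨g, hg⟩ : upSub hLL q' P) • z : J L') = g • z from rfl, val_smul_J, one_mul] at h1
          rw [h1]; exact val_one q' 1, smul_one]
      · exact hz.2 σ hσ
    · exact hz.1 q' (by simpa using hne) σ

open Classical in
/-- The prime `q` at every place of the double coset. -/
def qIdele : J L' :=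
  PT.singleJ q (fun σ => if σ ∈ placeSet hLL q P then (qUnit L' q).toMul else 1) fun t σ => by
    by_cases hσ : σ ∈ placeSet hLL q P
    · rw [if_pos hσ, if_pos ((toGlobal_mul_mem_placeSet_iff hLL q P t).2 hσ)]
      exact (congrArg Additive.toMul (smul_qUnit t)).symm
    · rw [if_neg hσ, if_neg fun h => hσ ((toGlobal_mul_mem_placeSet_iff hLL q P t).1 h), smul_one]

open Classical in
theorem val_qIdele (σ : L' ≃ₐ[ℚ] L') :
    val (qIdele hLL q P).toMul q σ = if σ ∈ placeSet hLL q P then (qUnit L' q).toMul else 1 :=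
  PT.val_singleJ_self q _ _ σ

theorem val_qIdele_ne {q' : Nat.Primes} (h : q' ≠ q) (σ : L' ≃ₐ[ℚ] L') :
    val (qIdele hLL q P).toMul q' σ = 1 :=
  PT.val_singleJ_ne q _ _ h σ

theorem qIdele_mem : qIdele hLL q P ∈ semiSub hLL q P := by
  classical
  exact ⟨fun q' hq' σ => val_qIdele_ne hLL q P (by simpa using hq') σ,
    fun σ hσ => by rw [val_qIdele, if_neg hσ]⟩

theorem smul_qIdele (g : upSub hLL q P) : g • qIdele hLL q P = qIdele hLL q P := by
  classical
  refine J_ext fun q' σ => ?_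
  rw [show g • qIdele hLL q P = (g : L' ≃ₐ[ℚ] L') • qIdele hLL q P from rfl, val_smul_J]
  rcases eq_or_ne q' q with rfl | hne
  · rw [val_qIdele, val_qIdele]
    simp only [mul_mem_placeSet_iff hLL q' P g.2]
  · rw [val_qIdele_ne _ _ _ hne, val_qIdele_ne _ _ _ hne]

theorem locPart_qIdele : locPart L' q (qIdele hLL q P) = loc' L' q (qUnit L' q) := by
  classical
  rw [locPart_apply, val_qIdele, if_pos ⟨1, 1, one_mem _, by rw [map_one, mul_one]⟩]
  rfl

/-- The restriction to the local subgroup. -/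
def phiSub : upSub hLL q P →* P :=
  ((P.equivMapOfInjective (toGlobal (q : ℕ) L) (toGlobal_injective (q : ℕ) L)).symm.toMonoidHom).comp
    (((Idele.resTo hLL).comp (upSub hLL q P).subtype).codRestrict (P.map (toGlobal (q : ℕ) L))
      fun g => g.2)

theorem toGlobal_phiSub (g : upSub hLL q P) :
    toGlobal (q : ℕ) L (phiSub hLL q P g : E L q ≃ₐ[ℚ_[(q : ℕ)]] E L q) =
      Idele.resTo hLL (g : L' ≃ₐ[ℚ] L') := by
  set e := P.equivMapOfInjective (toGlobal (q : ℕ) L) (toGlobal_injective (q : ℕ) L)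
  exact (Subgroup.coe_equivMapOfInjective_apply P _ (toGlobal_injective (q : ℕ) L) _).symm.trans
    (congrArg Subtype.val (e.apply_symm_apply _))

theorem inclJ'_loc'_mem (y : Additive (E L q)ˣ) :
    inclJ' hLL (loc' L q y) ∈ semiSub hLL q P := by
  have key : ∀ q' σ, val (loc' L q y).toMul q' (Idele.resTo hLL σ) = 1 →
      val (inclJ' hLL (loc' L q y)).toMul q' σ = 1 := fun q' σ h => by
    refine Units.ext (Subtype.ext ?_)
    show (((val (Idele.inclIdl hLL (loc' L q y).toMul) q' σ : (E L' q')ˣ) : E L' q') : Ω q') = _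
    rw [coe_val_inclIdl', h]
    simp only [Units.val_one, OneMemClass.coe_one]
  refine ⟨fun q' hq' σ => key q' σ (val_locIdl_of_ne q _ (by simpa using hq') _),
    fun σ hσ => key q σ (val_locIdl_of_notMem q _ ?_)⟩
  rintro ⟨t, ht⟩
  obtain ⟨s, rfl⟩ := localRes_surjective hLL q t
  refine hσ ⟨s, (toGlobal (q : ℕ) L' s)⁻¹ * σ, ?_, (mul_inv_cancel_left _ _).symm⟩
  show Idele.resTo hLL _ ∈ P.map (toGlobal (q : ℕ) L)
  rw [map_mul, map_inv, resTo_toGlobal, ht, inv_mul_cancel]
  exact one_mem _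

theorem locPart_inclJ'_loc' (y : Additive (E L q)ˣ) :
    locPart L' q (inclJ' hLL (loc' L q y)) = loc' L' q (inclU hLL q y) := by
  rw [locPart_apply, val_inclJ'_loc']
  rfl

theorem smul_inclJ'_loc' (g : upSub hLL q P) (y : Additive (E L q)ˣ) :
    g • inclJ' hLL (loc' L q y) =
      inclJ' hLL (loc' L q ((phiSub hLL q P g : E L q ≃ₐ[ℚ_[(q : ℕ)]] E L q) • y)) := by
  rw [loc'_smul L q (phiSub hLL q P g : E L q ≃ₐ[ℚ_[(q : ℕ)]] E L q) y, toGlobal_phiSub]
  exact smul_inclJ' hLL (g : L' ≃ₐ[ℚ] L') _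

theorem smul_loc'_decomp (d : L' ≃ₐ[ℚ] L') (t : E L' q ≃ₐ[ℚ_[(q : ℕ)]] E L' q)
    (h : toGlobal (q : ℕ) L' t = d) (y : Additive (E L' q)ˣ) :
    d • loc' L' q y = loc' L' q (t • y) := by
  rw [← h, loc'_smul]

set_option maxHeartbeats 1600000 in
/-- A local class dying among idele classes makes the carry cocycle of `qIdele` die. -/
theorem isCoboundary_carry_qIdele (u : NormCocycle (E L q ≃ₐ[ℚ_[(q : ℕ)]] E L q) (Additive (E L q)ˣ))
    (b : (E L' q ≃ₐ[ℚ_[(q : ℕ)]] E L' q) → Additive (E L' q)ˣ)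
    (hu : ∀ s t, inclU hLL q (u.toFun (localRes hLL q s, localRes hLL q t)) =
        carryN (chiLoc a hFL q) (qUnit L' q) (s, t) - dOne b (s, t))
    (k : ℤ) (β : P → C L)
    (hβ : ∀ g h : P, toGlobal (q : ℕ) L (g : E L q ≃ₐ[ℚ_[(q : ℕ)]] E L q) • β h - β (g * h) + β g =
      k • proj L (loc' L q (u.toFun ((g : E L q ≃ₐ[ℚ_[(q : ℕ)]] E L q), (h : E L q ≃ₐ[_] E L q))))) :
    IsCoboundary₂ (carryN ((chiGlob a hFL).comp (upSub hLL q P).subtype)
      (proj L' (k • qIdele hLL q P))) := by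
  classical
  set χ := (chiGlob a hFL).comp (upSub hLL q P).subtype
  let φ := phiSub hLL q P
  letI : Fintype (upSub hLL q P ⧸ (decomp L' q).subgroupOf (upSub hLL q P)) := Fintype.ofFinite _
  have hproj := semiProj_semiSub hLL q P
  have hfix : ∀ g : upSub hLL q P, g • (k • qIdele hLL q P) = k • qIdele hLL q P := fun g => by
    rw [smul_comm, smul_qIdele]
  let c₁ : upSub hLL q P × upSub hLL q P → J L' := fun gh =>
    k • inclJ' hLL (loc' L q (u.toFun ((φ gh.1 : E L q ≃ₐ[_] E L q), (φ gh.2 : E L q ≃ₐ[_] E L q))))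
  have hact := smul_inclJ'_loc' hLL q P
  have hc₁ : IsCocycle₂ c₁ := fun g h j => by
    simp only [c₁, smul_comm g k, hact, ← smul_add, ← map_add, map_mul, Subgroup.coe_mul]
    rw [u.isCocycle]
  let c : upSub hLL q P × upSub hLL q P → J L' := carryN χ (k • qIdele hLL q P) - c₁
  have hc : IsCocycle₂ c := isCocycle₂_sub (isCocycle₂_carryN hfix) hc₁
  have hmem : ∀ x, c x ∈ semiSub hLL q P := fun x =>
    sub_mem (nsmul_mem (zsmul_mem (qIdele_mem hLL q P) k) _)
      (zsmul_mem (inclJ'_loc'_mem hLL q P _) k)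
  choose s hs using fun d : (decomp L' q).subgroupOf (upSub hLL q P) =>
    MonoidHom.mem_range.1 (Subgroup.mem_subgroupOf.1 d.2)
  have hsmul : ∀ d d', s (d * d') = s d * s d' := fun d d' =>
    toGlobal_injective (q : ℕ) L' (by rw [map_mul, hs, hs, hs]; rfl)
  have hφs : ∀ d : (decomp L' q).subgroupOf (upSub hLL q P),
      (φ (d : upSub hLL q P) : E L q ≃ₐ[ℚ_[(q : ℕ)]] E L q) = localRes hLL q (s d) := fun d =>
    toGlobal_injective (q : ℕ) L (by rw [toGlobal_phiSub, ← resTo_toGlobal, hs])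
  have hχs : ∀ d : (decomp L' q).subgroupOf (upSub hLL q P),
      chiVal χ (d : upSub hLL q P) = chiVal (chiLoc a hFL q) (s d) := fun d => by
    show (Multiplicative.toAdd (chiGlob a hFL _)).val =
      (Multiplicative.toAdd (chiGlob a hFL (toGlobal (q : ℕ) L' (s d)))).val
    rw [hs]
    rfl
  let m : (decomp L' q).subgroupOf (upSub hLL q P) → J L' := fun d => k • loc' L' q (b (s d))
  obtain ⟨t, -, ht⟩ := hproj.exists_h2 c hc hmem m
    (fun d => by simp only [m, map_zsmul, locPart_loc'])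
    (fun d d' => by
      have hd : ∀ (d : (decomp L' q).subgroupOf (upSub hLL q P)) (y : Additive (E L' q)ˣ),
          (d : upSub hLL q P) • loc' L' q y = loc' L' q (s d • y) := fun d y =>
        smul_loc'_decomp q _ _ (hs d) y
      simp only [c, Pi.sub_apply, map_sub, carryN, c₁, map_nsmul, map_zsmul, locPart_qIdele,
        locPart_inclJ'_loc', hφs, hu, hχs, m, smul_comm _ k, hd, hsmul, dOne, map_add, smul_sub,
        smul_add]
      abel)
  refine ⟨fun g => proj L' (t g) + Idele.inclC hLL (β (φ g)), fun g h => ?_⟩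
  have e1 := congrArg (proj L') (ht g h)
  have e2 := congrArg (Idele.inclC hLL) (hβ (φ g) (φ h))
  have e3 : Idele.inclC hLL (toGlobal (q : ℕ) L (φ g : E L q ≃ₐ[ℚ_[(q : ℕ)]] E L q) • β (φ h)) =
      g • Idele.inclC hLL (β (φ h)) := by
    rw [toGlobal_phiSub]
    exact (Idele.inclC_smul hLL (g : L' ≃ₐ[ℚ] L') _).symm
  rw [map_add, map_sub, e3, map_zsmul, ← proj_inclJ'] at e2
  rw [map_add, map_sub, show proj L' (g • t h) = g • proj L' (t h) from
    proj_smul L' (g : L' ≃ₐ[ℚ] L') _] at e1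
  have e4 : carryN χ (proj L' (k • qIdele hLL q P)) (g, h) =
      proj L' (c (g, h)) + k • proj L' (inclJ' hLL (loc' L q
        (u.toFun ((φ g : E L q ≃ₐ[_] E L q), (φ h : E L q ≃ₐ[_] E L q))))) := by
    simp only [c, c₁, Pi.sub_apply, map_sub, carryN, map_nsmul, map_zsmul, sub_add_cancel]
  rw [e4, ← e1, ← e2]
  simp only [map_mul, smul_add]
  abel

end Fermat.Agent.CFT.Form
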