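import Fermat.Agent.CFT.Duality.Main
import Fermat.Agent.CFT.Local.Units

/-!
# Statements: the global and local class formations and their compatibility

The three inputs of Poitou–Tate and of the Euler count, as propositions.
-/

set_option autoImplicit false
set_option synthInstance.maxHeartbeats 200000
set_option linter.unusedSectionVars false

noncomputable section

namespace Fermat.Agent.CFT.Form

open ExtCitation Fermat.Agent.Arith IntermediateField Fermat.Agent.CFT.Local Fermat.Agent.CFT.Idele
open groupCohomology

local instance factPrimeForm (q : Nat.Primes) : Fact (q : ℕ).Prime := ⟨q.2⟩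

variable (p : ℕ) (L : IntermediateField ℚ QBar) [FiniteDimensional ℚ L] [Normal ℚ L]

/-- The idele classes of `L` form a class formation at `p`. -/
def GlobalFormationProperty : Prop :=
  ∃ u : NormCocycle (L ≃ₐ[ℚ] L) (C L), IsClassFormation p u

/-- The units of the completion at `q` form a class formation at `p`. -/
def LocalFormationProperty (q : Nat.Primes) : Prop :=
  ∃ u : NormCocycle (E L q ≃ₐ[ℚ_[(q : ℕ)]] E L q) (Additive (E L q)ˣ), IsClassFormation p u

/-- A local class that dies among idele classes is trivial. -/
def LocalGlobalProperty (q : Nat.Primes) : Prop :=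
  ∀ H : Subgroup (E L q ≃ₐ[ℚ_[(q : ℕ)]] E L q), IsPGroup p H →
    ∀ c : H × H → Additive (E L q)ˣ, IsCocycle₂ c →
      (∃ b : H → C L, ∀ g h : H,
        toGlobal (q : ℕ) L g • b h - b (g * h) + b g = proj L (loc' L q (c (g, h)))) →
      IsCoboundary₂ c

end Fermat.Agent.CFT.Form
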